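import Fermat.Agent.QuadForms.Approximation
import Mathlib.Data.Nat.Prime.Factorial

/-!
# Gauss's lemma on primes `≡ 1` modulo `8`

Such a prime `q` is a non-residue modulo some smaller odd prime: otherwise it would be a square
`x²` modulo `(2 m + 1)!`, `m = √q`, and this factorial would divide the positive number
`(q - 1²) ⋯ (q - m²)`, which is smaller.
-/

set_option autoImplicit false

noncomputable section

open Finset
open scoped Nat

namespace Fermat.Agent.K2Rat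

theorem descFactorial_eq_prod (x : ℕ) : ∀ j, j ≤ x → (((x + j).descFactorial (2 * j + 1) : ℕ) : ℤ)
    = (x : ℤ) * ∏ i ∈ range j, ((x : ℤ) ^ 2 - ((i : ℤ) + 1) ^ 2) := by
  intro j
  induction j with
  | zero => simp
  | succ j ih =>
    intro hj
    rw [show x + (j + 1) = (x + j) + 1 by ring, show 2 * (j + 1) + 1 = (2 * j + 2) + 1 by ring,
      Nat.succ_descFactorial_succ, show 2 * j + 2 = (2 * j + 1) + 1 by ring,
      Nat.descFactorial_succ, Nat.cast_mul, Nat.cast_mul, ih (by omega), prod_range_succ,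
      Nat.cast_sub (by omega)]
    push_cast
    ring

theorem exists_sq_congr_pow {q r : ℕ} [hr : Fact r.Prime] (hrq : ¬ r ∣ q) (h8 : q % 8 = 1)
    (hsq : r ≠ 2 → IsSquare ((q : ℤ) : ZMod r)) (k : ℕ) :
    ∃ A : ℤ, (r : ℤ) ^ k ∣ A * A - q := by
  obtain ⟨w, hw⟩ : IsSquare ((q : ℤ) : ℚ_[r]) := by
    rcases eq_or_ne r 2 with rfl | h2
    · exact FA.QuadForms.isSquare_two_of_modEq (by omega)
    · exact FA.QuadForms.isSquare_of_residue h2
        (fun h => hrq (Int.natCast_dvd_natCast.1 h)) (hsq h2)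
  have hw1 : ‖w‖ ≤ 1 := by
    refine (pow_le_one_iff_of_nonneg (norm_nonneg w) two_ne_zero).1 ?_
    rw [← norm_pow, pow_two, ← hw]
    exact Padic.norm_int_le_one (p := r) _
  let Z : ℤ_[r] := ⟨w, hw1⟩
  have he : ((q : ℤ) : ℤ_[r]) = Z * Z := Subtype.ext (by
    rw [PadicInt.coe_intCast, PadicInt.coe_mul]
    exact hw)
  refine ⟨(PadicInt.toZModPow k Z).val, ?_⟩
  have : NeZero (r ^ k) := ⟨pow_ne_zero _ hr.out.ne_zero⟩
  rw [← Nat.cast_pow, ← ZMod.intCast_zmod_eq_zero_iff_dvd]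
  push_cast
  rw [ZMod.natCast_zmod_val, ← map_mul, ← he, map_intCast, Int.cast_natCast, sub_self]

/-- **Gauss's lemma.** -/
theorem exists_prime_not_isSquare {q : ℕ} (hq : q.Prime) (h8 : q % 8 = 1) :
    ∃ r : ℕ, r.Prime ∧ r ≠ 2 ∧ r < q ∧ ¬ IsSquare ((q : ℤ) : ZMod r) := by
  by_contra! hall
  set m := Nat.sqrt q
  have hm1 : m * m ≤ q := Nat.sqrt_le q
  have hm2 : q < (m + 1) * (m + 1) := Nat.lt_succ_sqrt q
  have hm3 : m * m ≠ q := fun e => by
    rcases hq.eq_one_or_self_of_dvd m ⟨m, e.symm⟩ with h | h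
    · rw [h] at e
      exact hq.ne_one e.symm
    · rw [h] at e
      have := hq.two_le
      nlinarith
  have h17 : 17 ≤ q := by
    by_contra! h
    rcases (show q = 1 ∨ q = 9 by omega) with rfl | rfl <;> exact absurd hq (by decide)
  have hm4 : 4 ≤ m := by
    by_contra! h
    nlinarith
  set M := (2 * m + 1)!
  have hM0 : M ≠ 0 := Nat.factorial_ne_zero _
  have hMq : ∀ r : ℕ, r.Prime → r ∣ M → r < q := fun r hr hd =>
    lt_of_le_of_lt ((Nat.Prime.dvd_factorial hr).1 hd) (by nlinarith)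
  have hA : ∀ r : ℕ, ∃ A : ℤ, r.Prime → r ∣ M → (r : ℤ) ^ padicValNat r M ∣ A * A - q := fun r => by
    by_cases h : r.Prime ∧ r ∣ M
    · have := Fact.mk h.1
      obtain ⟨A, hA⟩ := exists_sq_congr_pow (r := r)
        (fun hd => (hMq r h.1 h.2).ne ((Nat.prime_dvd_prime_iff_eq h.1 hq).1 hd)) h8
        (fun h2 => hall r h.1 h2 (hMq r h.1 h.2)) (padicValNat r M)
      exact ⟨A, fun _ _ => hA⟩
    · exact ⟨0, fun hr hd => absurd ⟨hr, hd⟩ h⟩
  choose A hA using hA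
  obtain ⟨x₀, hx₀⟩ := FA.QuadForms.exists_int_congr M.primeFactors
    (fun r hr => Nat.prime_of_mem_primeFactors hr) (fun r => padicValNat r M) A
  have hdvd : (M : ℤ) ∣ x₀ * x₀ - q := by
    rw [Int.natCast_dvd, Nat.dvd_iff_prime_pow_dvd_dvd]
    intro r k hr hk
    have := Fact.mk hr
    rcases Nat.eq_zero_or_pos k with rfl | hk0
    · simp
    have hrM : r ∣ M := (dvd_pow_self r hk0.ne').trans hk
    have hle : k ≤ padicValNat r M := (padicValNat_dvd_iff_le hM0).1 hk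
    have h2 : (r : ℤ) ^ padicValNat r M ∣ x₀ * x₀ - q := by
      have h3 := dvd_add ((hx₀ r (Nat.mem_primeFactors.2 ⟨hr, hrM, hM0⟩)).mul_right (x₀ + A r))
        (hA r hr hrM)
      exact h3.trans (dvd_of_eq (by ring))
    rw [← Int.natCast_dvd, Nat.cast_pow]
    exact (pow_dvd_pow _ hle).trans h2
  set x := (x₀ % (M : ℤ)).toNat + M * (m + 1)
  have hxm : m + 1 ≤ x := le_add_left (Nat.le_mul_of_pos_left _ (Nat.pos_of_ne_zero hM0))
  have hx : (M : ℤ) ∣ (x : ℤ) * x - q := by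
    have e : (x : ℤ) = x₀ + M * (((m + 1 : ℕ) : ℤ) - x₀ / M) := by
      have h1 := Int.toNat_of_nonneg (Int.emod_nonneg x₀ (Int.natCast_ne_zero.2 hM0))
      have h2 := Int.mul_ediv_add_emod x₀ M
      simp only [x]
      push_cast
      linear_combination h1 + h2
    rw [e]
    exact dvd_trans (dvd_add hdvd (Dvd.intro _ rfl :
      (M : ℤ) ∣ M * ((((m + 1 : ℕ) : ℤ) - x₀ / M) * (2 * x₀ + M * (((m + 1 : ℕ) : ℤ) - x₀ / M)))))
      (dvd_of_eq (by ring))
  have hcop : IsCoprime (M : ℤ) (x : ℤ) := by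
    rw [Int.isCoprime_iff_nat_coprime, Int.natAbs_natCast, Int.natAbs_natCast]
    refine Nat.coprime_of_dvd fun r hr hrM hrx => (hMq r hr hrM).ne ?_
    refine (Nat.prime_dvd_prime_iff_eq hr hq).1 (Int.natCast_dvd_natCast.1 ?_)
    have h1 := (Int.natCast_dvd_natCast.2 hrM).trans hx
    simpa using dvd_sub (dvd_mul_of_dvd_left (Int.natCast_dvd_natCast.2 hrx) (x : ℤ)) h1
  have h1 : (M : ℤ) ∣ ∏ i ∈ range m, ((x : ℤ) ^ 2 - ((i : ℤ) + 1) ^ 2) := by
    refine hcop.dvd_of_dvd_mul_left ?_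
    rw [← descFactorial_eq_prod x m (by omega)]
    exact Int.natCast_dvd_natCast.2 (Nat.factorial_dvd_descFactorial _ _)
  have h2 : (M : ℤ) ∣ ∏ i ∈ range m, ((q : ℤ) - ((i : ℤ) + 1) ^ 2) := by
    rw [← ZMod.intCast_zmod_eq_zero_iff_dvd] at hx h1 ⊢
    rw [← h1]
    push_cast at hx ⊢
    refine prod_congr rfl fun i _ => ?_
    linear_combination -hx
  have hlt : ∀ i ∈ range m, (0 : ℤ) < (q : ℤ) - ((i : ℤ) + 1) ^ 2 := fun i hi => by
    have h3 : (i + 1) * (i + 1) ≤ m * m := Nat.mul_le_mul (mem_range.1 hi) (mem_range.1 hi)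
    have h4 : (i + 1) * (i + 1) < q := lt_of_le_of_lt h3 (lt_of_le_of_ne hm1 hm3)
    have h5 : (((i + 1) * (i + 1) : ℕ) : ℤ) < q := Int.ofNat_lt.2 h4
    push_cast at h5
    linarith
  have hR := descFactorial_eq_prod (m + 1) m (by omega)
  rw [show m + 1 + m = 2 * m + 1 by ring, Nat.descFactorial_self] at hR
  have hle : ∏ i ∈ range m, ((q : ℤ) - ((i : ℤ) + 1) ^ 2) ≤
      ∏ i ∈ range m, (((m + 1 : ℕ) : ℤ) ^ 2 - ((i : ℤ) + 1) ^ 2) :=
    prod_le_prod (fun i hi => (hlt i hi).le) fun i _ => by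
      have h5 : ((q : ℕ) : ℤ) ≤ (((m + 1) * (m + 1) : ℕ) : ℤ) := Int.ofNat_le.2 hm2.le
      push_cast at h5 ⊢
      linarith
  have hP := Int.le_of_dvd (prod_pos hlt) h2
  have hMpos : (0 : ℤ) < M := Int.natCast_pos.2 (Nat.pos_of_ne_zero hM0)
  have h5 : (2 : ℤ) ≤ ((m + 1 : ℕ) : ℤ) := by exact_mod_cast (show 2 ≤ m + 1 by omega)
  nlinarith [hR]

end Fermat.Agent.K2Rat
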