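import Fermat.Agent.K2Rat.Tate
import Fermat.Agent.K2Rat.GaussPrime

/-!
# Quadratic reciprocity by Tate's method

Every Steinberg symbol on `ℚ` factors uniquely through the real and tame symbols. For the Hilbert
symbol at `2` induction over the primes finds every factor to be the Legendre symbol.
-/

set_option autoImplicit false

noncomputable section

namespace Fermat.Agent.K2Rat

open scoped DirectSum

attribute [local instance] primesFact

variable {A : Type*} [AddCommGroup A]

theorem support_subset (g : ∀ q : Nat.Primes, Additive (ZMod (q : ℕ))ˣ →+ A) (a b : ℚˣ) :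
    (Function.support fun q : Nat.Primes => g q (tame q a b)) ⊆
      ↑(badPrimes a ∪ badPrimes b) := fun q hq => by
  by_contra h
  rw [Finset.mem_coe, Finset.mem_union, not_or] at h
  exact hq (by
    show g q (tame q a b) = 0
    rw [tame_eq_zero (val_eq_zero_of_notMem h.1) (val_eq_zero_of_notMem h.2), map_zero])

theorem tameSum_eq_sum (a b : ℚˣ) :
    tameSum a b = ∑ q ∈ badPrimes a ∪ badPrimes b,
      DirectSum.of (fun q : Nat.Primes => Additive (ZMod (q : ℕ))ˣ) q (tame q a b) := by
  classical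
  refine DirectSum.ext fun q => ?_
  rw [tameSum_apply, DFinsupp.finsetSum_apply]
  by_cases hq : q ∈ badPrimes a ∪ badPrimes b
  · rw [Finset.sum_eq_single_of_mem q hq fun r _ hr => DirectSum.of_eq_of_ne _ _ _ (Ne.symm hr),
      DirectSum.of_eq_same]
  · rw [Finset.sum_eq_zero fun r hr =>
      DirectSum.of_eq_of_ne _ _ _ fun e => hq (by rw [e]; exact hr)]
    rw [Finset.mem_union, not_or] at hq
    exact tame_eq_zero (val_eq_zero_of_notMem hq.1) (val_eq_zero_of_notMem hq.2)

/-- **Every Steinberg symbol on `ℚ` factors uniquely through the real and tame symbols.** -/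
theorem existsUnique_factor (s : SteinbergSymbol ℚ A) :
    ∃! f : (Additive ℤˣ →+ A) × (∀ q : Nat.Primes, Additive (ZMod (q : ℕ))ˣ →+ A),
      ∀ a b, s a b = f.1 (realSymbol a b) + ∑ᶠ q : Nat.Primes, f.2 q (tame q a b) := by
  classical
  let F : Target →+ A := (lift s).comp k2RatEquiv.symm.toAddMonoidHom
  have hF : ∀ a b, F (realSymbol a b, tameSum a b) = s a b := fun a b => by
    rw [← k2RatEquiv_apply]
    show lift s (k2RatEquiv.symm (k2RatEquiv _)) = _
    rw [AddEquiv.symm_apply_apply, lift_univSymbol]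
  let f0 : Additive ℤˣ →+ A := F.comp (AddMonoidHom.inl _ _)
  let g : ∀ q : Nat.Primes, Additive (ZMod (q : ℕ))ˣ →+ A := fun q =>
    F.comp ((AddMonoidHom.inr _ _).comp
      (DirectSum.of (fun q : Nat.Primes => Additive (ZMod (q : ℕ))ˣ) q))
  refine ⟨(f0, g), fun a b => ?_, fun f hf => ?_⟩
  · rw [finsum_eq_sum_of_support_subset _ (support_subset g a b), ← hF a b,
      show ((realSymbol a b, tameSum a b) : Target) = (realSymbol a b, 0) + (0, tameSum a b) from
        Prod.ext (by simp) (by simp), map_add, tameSum_eq_sum]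
    refine congrArg _ ?_
    show F (AddMonoidHom.inr _ _ (∑ q ∈ _, _)) = _
    rw [map_sum, map_sum]
    rfl
  let G : Target →+ A := f.1.comp (AddMonoidHom.fst _ _) +
    (DirectSum.toAddMonoid f.2).comp (AddMonoidHom.snd _ _)
  have hG : G = F := by
    have h : G.comp (lift allSymbols) = F.comp (lift allSymbols) := hom_ext fun a b => by
      rw [AddMonoidHom.comp_apply, AddMonoidHom.comp_apply, lift_univSymbol]
      show f.1 (realSymbol a b) + DirectSum.toAddMonoid f.2 (tameSum a b) = F (_, _)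
      rw [hF, hf a b, finsum_eq_sum_of_support_subset _ (support_subset f.2 a b), tameSum_eq_sum,
        map_sum]
      simp only [DirectSum.toAddMonoid_of]
    exact AddMonoidHom.ext fun z => by
      obtain ⟨w, rfl⟩ := lift_allSymbols_surjective z
      exact DFunLike.congr_fun h w
  refine Prod.ext (AddMonoidHom.ext fun e => ?_) (funext fun q => AddMonoidHom.ext fun x => ?_)
  · show f.1 e = F (e, 0)
    rw [← hG]
    simp [G]
  · show f.2 q x = F (0, DirectSum.of _ q x)
    rw [← hG]
    simp [G]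

/-- The sign of two units modulo `8` both `≡ 3` modulo `4`. -/
def sign4 (u v : (ZMod (2 ^ 3))ˣ) : ℤˣ :=
  if ((u : ZMod (2 ^ 3)) = 3 ∨ (u : ZMod (2 ^ 3)) = 7) ∧
    ((v : ZMod (2 ^ 3)) = 3 ∨ (v : ZMod (2 ^ 3)) = 7) then -1 else 1

/-- The sign of a unit modulo `8` which is `≡ ±3`. -/
def sign8 (u : (ZMod (2 ^ 3))ˣ) : ℤˣ :=
  if (u : ZMod (2 ^ 3)) = 3 ∨ (u : ZMod (2 ^ 3)) = 5 then -1 else 1

theorem sign4_mul : ∀ u v w : (ZMod (2 ^ 3))ˣ,
    sign4 (u * v) w = sign4 u w * sign4 v w ∧ sign4 u (v * w) = sign4 u v * sign4 u w := by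
  unfold sign4
  decide

theorem sign8_mul : ∀ u v : (ZMod (2 ^ 3))ˣ, sign8 (u * v) = sign8 u * sign8 v := by
  unfold sign8
  decide

/-- `sign8` as a homomorphism. -/
def sign8Hom : (ZMod (2 ^ 3))ˣ →* ℤˣ := MonoidHom.mk' sign8 sign8_mul

theorem dyadic_cases : ∀ u v : (ZMod (2 ^ 3))ˣ,
    ((v : ZMod (2 ^ 3)) + 2 * (u : ZMod (2 ^ 3)) = 1 → sign4 u v * sign8 v = 1) ∧
    ((v : ZMod (2 ^ 3)) + 4 * (u : ZMod (2 ^ 3)) = 1 → sign4 u v = 1) ∧
    ((v : ZMod (2 ^ 3)) = 1 → sign4 u v = 1 ∧ sign8 v = 1) ∧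
    ((u : ZMod (2 ^ 3)) + v ≠ 1) ∧
    ((u : ZMod (2 ^ 3)) + v = 2 → sign4 u v * (sign8 v * sign8 u) = 1) ∧
    ((u : ZMod (2 ^ 3)) + v = 4 → sign4 u v = 1) ∧
    ((u : ZMod (2 ^ 3)) + v = 0 → sign4 u v = 1 ∧ sign8 v = sign8 u) ∧
    sign4 u v = sign4 v u := by
  unfold sign4 sign8
  decide

/-- The unit part modulo `8`. -/
def res8 : ℚˣ →* (ZMod (2 ^ 3))ˣ :=
  (Units.map (PadicInt.toZModPow 3 : ℤ_[2] →+* ZMod (2 ^ 3)).toMonoidHom).comp (unitPartHom 2)

theorem units_int_zpow_neg (x : ℤˣ) (k : ℤ) : x ^ (-k) = x ^ k := by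
  rw [zpow_neg, Int.units_inv_eq_self]

theorem sign_pow (x : ℤˣ) (m : ℕ) : x ^ ((m : ℤ) + 1) = x ^ (m + 1) := by
  rw [← zpow_natCast]
  push_cast
  rfl

theorem pow_two_toZMod (m : ℕ) :
    ((2 : ℕ) : ZMod (2 ^ 3)) ^ (m + 1) = 2 ∧ m = 0 ∨
      ((2 : ℕ) : ZMod (2 ^ 3)) ^ (m + 1) = 4 ∧ m = 1 ∨
      ((2 : ℕ) : ZMod (2 ^ 3)) ^ (m + 1) = 0 ∧ 2 ≤ m := by
  rcases (show m = 0 ∨ m = 1 ∨ ∃ k, m = 2 + k from by
    rcases m with _ | _ | k
    · exact Or.inl rfl
    · exact Or.inr (Or.inl rfl)
    · exact Or.inr (Or.inr ⟨k, by omega⟩)) with rfl | rfl | ⟨k, rfl⟩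
  · exact Or.inl ⟨by decide, rfl⟩
  · exact Or.inr (Or.inl ⟨by decide, rfl⟩)
  · refine Or.inr (Or.inr ⟨?_, by omega⟩)
    rw [show 2 + k + 1 = 3 + k by omega, pow_add, show ((2 : ℕ) : ZMod (2 ^ 3)) ^ 3 = 0 by decide,
      zero_mul]

/-- The key computation. -/
theorem dyadic_pos {u v : (ZMod (2 ^ 3))ˣ} {m : ℕ}
    (h : (v : ZMod (2 ^ 3)) + ((2 : ℕ) : ZMod (2 ^ 3)) ^ (m + 1) * (u : ZMod (2 ^ 3)) = 1) :
    sign4 u v * sign8 v ^ (m + 1) = 1 := by
  obtain ⟨c1, c2, c3, -⟩ := dyadic_cases u v
  rcases pow_two_toZMod m with ⟨e, rfl⟩ | ⟨e, rfl⟩ | ⟨e, -⟩ <;> rw [e] at h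
  · rw [pow_one]
    exact c1 h
  · rw [c2 h, one_mul, Int.units_sq]
  · rw [zero_mul, add_zero] at h
    rw [(c3 h).1, (c3 h).2, one_pow, one_mul]

/-- **The Hilbert symbol at `2`.** -/
def dyadic : SteinbergSymbol ℚ (Additive ℤˣ) where
  toFun a b := Additive.ofMul
    (sign4 (res8 a) (res8 b) * sign8Hom (res8 b) ^ val 2 a * sign8Hom (res8 a) ^ val 2 b)
  mul_left a b c := by
    rw [← ofMul_mul]
    refine congrArg Additive.ofMul ?_
    rw [map_mul, map_mul, val_mul, (sign4_mul _ _ _).1, zpow_add, mul_zpow,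
      mul_mul_mul_comm (sign4 (res8 a) (res8 c)), mul_mul_mul_comm]
  mul_right a b c := by
    rw [← ofMul_mul]
    refine congrArg Additive.ofMul ?_
    rw [map_mul, map_mul, val_mul, (sign4_mul _ _ _).2, zpow_add, mul_zpow,
      mul_mul_mul_comm (sign4 (res8 a) (res8 b)), mul_mul_mul_comm]
  steinberg a b h := by
    refine ofMul_eq_zero.2 ?_
    show sign4 _ _ * sign8 _ ^ _ * sign8 _ ^ _ = 1
    rcases cases_of_add_eq_one (p := 2) h with ⟨m, ha, hb, he⟩ | ⟨m, hb, ha, he⟩ | ⟨ha, hb⟩ |
      ⟨m, ha, hb, he⟩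
    · have he' := congrArg (PadicInt.toZModPow 3) he
      rw [map_add, map_mul, map_pow, map_natCast, map_one] at he'
      rw [ha, hb, zpow_zero, mul_one, sign_pow]
      exact dyadic_pos he'
    · have he' := congrArg (PadicInt.toZModPow 3) he
      rw [map_add, map_mul, map_pow, map_natCast, map_one] at he'
      rw [ha, hb, zpow_zero, mul_one, sign_pow, (dyadic_cases _ _).2.2.2.2.2.2.2]
      exact dyadic_pos he'
    · have he : (unitPartHom 2 a : ℤ_[2]) + unitPartHom 2 b = 1 := Subtype.ext (by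
        push_cast
        rw [unitPartHom_of_val 2 ha, unitPartHom_of_val 2 hb]
        exact_mod_cast congrArg (Rat.cast : ℚ → ℚ_[2]) h)
      have he' := congrArg (PadicInt.toZModPow 3) he
      rw [map_add, map_one] at he'
      exact absurd he' (dyadic_cases (res8 a) (res8 b)).2.2.2.1
    · have he' := congrArg (PadicInt.toZModPow 3) he
      rw [map_add, map_pow, map_natCast] at he'
      rw [ha, hb, units_int_zpow_neg, units_int_zpow_neg, sign_pow, sign_pow, mul_assoc, ← mul_pow]
      obtain ⟨-, -, -, -, c2, c4, c0, -⟩ := dyadic_cases (res8 a) (res8 b)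
      rcases pow_two_toZMod m with ⟨e, rfl⟩ | ⟨e, rfl⟩ | ⟨e, -⟩ <;> rw [e] at he'
      · rw [pow_one]
        exact c2 he'
      · rw [c4 he', one_mul, Int.units_sq]
      · rw [(c0 he').1, (c0 he').2, ← pow_two, Int.units_sq, one_pow, one_mul]

/-- The Legendre symbol on the units modulo `q`. -/
def legHom (q : ℕ) [Fact q.Prime] : Additive (ZMod q)ˣ →+ Additive ℤˣ :=
  MonoidHom.toAdditive (quadraticChar (ZMod q)).toUnitHom

theorem coe_legHom {q : ℕ} [Fact q.Prime] (x : (ZMod q)ˣ) :
    ((Additive.toMul (legHom q (Additive.ofMul x)) : ℤˣ) : ℤ) = quadraticChar (ZMod q) x :=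
  MulChar.coe_toUnitHom _ x

/-- A non-trivial sign character of `(ZMod q)ˣ` is the Legendre symbol. -/
theorem eq_legHom {q : ℕ} [Fact q.Prime] (hq : q ≠ 2) {f : Additive (ZMod q)ˣ →+ Additive ℤˣ}
    (h : ∃ x, f x = Additive.ofMul (-1)) : f = legHom q := by
  obtain ⟨x₀, hx₀⟩ := h
  obtain ⟨g, hg⟩ := IsCyclic.exists_generator (α := (ZMod q)ˣ)
  have hgen : ∀ x : Additive (ZMod q)ˣ, ∃ k : ℤ, x = k • Additive.ofMul g := fun x => by
    obtain ⟨k, hk⟩ := Subgroup.mem_zpowers_iff.1 (hg (Additive.toMul x))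
    exact ⟨k, by rw [← ofMul_zpow, hk]; rfl⟩
  have hf : f (Additive.ofMul g) = Additive.ofMul (-1) := by
    rcases Int.units_eq_one_or (Additive.toMul (f (Additive.ofMul g))) with h | h
    · obtain ⟨k, rfl⟩ := hgen x₀
      rw [map_zsmul, show f (Additive.ofMul g) = 0 from h, smul_zero] at hx₀
      exact absurd (congrArg Additive.toMul hx₀) (show (1 : ℤˣ) ≠ -1 by decide)
    · exact h
  have hl : legHom q (Additive.ofMul g) = Additive.ofMul (-1) := by
    rcases Int.units_eq_one_or (Additive.toMul (legHom q (Additive.ofMul g))) with h | h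
    · exfalso
      obtain ⟨c, hc⟩ := FiniteField.exists_nonsquare (F := ZMod q) (by rwa [ZMod.ringChar_zmod_n])
      have hc0 : c ≠ 0 := fun e => hc (e ▸ IsSquare.zero)
      obtain ⟨k, hk⟩ := hgen (Additive.ofMul (Units.mk0 c hc0))
      have h2 := coe_legHom (Units.mk0 c hc0)
      rw [hk, map_zsmul, show legHom q (Additive.ofMul g) = 0 from h, smul_zero, toMul_zero,
        Units.val_one, Units.val_mk0, eq_comm, quadraticChar_one_iff_isSquare hc0] at h2
      exact hc h2
    · exact h
  refine AddMonoidHom.ext fun x => ?_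
  obtain ⟨k, rfl⟩ := hgen x
  rw [map_zsmul, map_zsmul, hf, hl]

theorem res8_natUnit {x : ℕ} (hx : x % 2 = 1) :
    ((res8 (natUnit x) : (ZMod (2 ^ 3))ˣ) : ZMod (2 ^ 3)) = ((x % 8 : ℕ) : ZMod (2 ^ 3)) := by
  have hx0 : x ≠ 0 := by omega
  have hv : val 2 (natUnit x) = 0 := by
    rw [val_natUnit _ hx0, padicValNat.eq_zero_of_not_dvd (by omega), Nat.cast_zero]
  have he : (unitPartHom 2 (natUnit x) : ℤ_[2]) = (x : ℤ_[2]) := Subtype.ext (by
    push_cast
    rw [unitPartHom_of_val 2 hv, coe_natUnit hx0, Rat.cast_natCast])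
  show PadicInt.toZModPow 3 _ = _
  rw [he, map_natCast, ← ZMod.natCast_mod]
  rfl

theorem resHom_natUnit {q x : ℕ} [Fact q.Prime] (hx : ¬ q ∣ x) :
    ((resHom q (natUnit x) : (ZMod q)ˣ) : ZMod q) = (x : ZMod q) := by
  have hx0 : x ≠ 0 := fun e => hx (e ▸ dvd_zero q)
  have hv : val q (natUnit x) = 0 := by
    rw [val_natUnit _ hx0, padicValNat.eq_zero_of_not_dvd hx, Nat.cast_zero]
  have he : (unitPartHom q (natUnit x) : ℤ_[q]) = (x : ℤ_[q]) := Subtype.ext (by
    push_cast
    rw [unitPartHom_of_val q hv, coe_natUnit hx0, Rat.cast_natCast])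
  rw [val_resHom, he, map_natCast]

theorem realSymbol_eq_zero {a b : ℚˣ} (hb : 0 < (b : ℚ)) : realSymbol a b = 0 := by
  show Additive.ofMul _ = _
  rw [if_neg fun h => absurd h.2 (not_lt.2 hb.le)]
  rfl

theorem val_natUnit_prime {r q : ℕ} [hr : Fact r.Prime] [hq : Fact q.Prime] (h : r ≠ q) :
    val r (natUnit q) = 0 := by
  rw [val_natUnit _ hq.out.ne_zero, padicValNat_primes h, Nat.cast_zero]

theorem tame_symm {p : ℕ} [Fact p.Prime] {u : ℚˣ} (hu : val p u = 0) :
    tame p (natUnit p) u = -Additive.ofMul (resHom p u) := by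
  show Additive.ofMul _ = _
  rw [val_natUnit_self, hu]
  simp

variable (G : ∀ (q : ℕ) [Fact q.Prime], Additive (ZMod q)ˣ →+ A)

/-- A sum of tame symbols supported at one prime. -/
theorem tame_finsum_single (a b : ℚˣ) (q : ℕ) [hq : Fact q.Prime]
    (h : ∀ (i : ℕ) [Fact i.Prime], i ≠ q → G i (tame i a b) = 0) :
    ∑ᶠ i : Nat.Primes, G i (tame i a b) = G q (tame q a b) :=
  finsum_eq_single (fun i : Nat.Primes => G i (tame i a b)) ⟨q, hq.out⟩
    fun i hi => h i fun e => hi (Subtype.ext e)

/-- A sum of tame symbols supported at two primes. -/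
theorem tame_finsum_pair (a b : ℚˣ) (r q : ℕ) [hr : Fact r.Prime] [hq : Fact q.Prime] (hrq : r ≠ q)
    (h : ∀ (i : ℕ) [Fact i.Prime], i ≠ r → i ≠ q → G i (tame i a b) = 0) :
    ∑ᶠ i : Nat.Primes, G i (tame i a b) = G r (tame r a b) + G q (tame q a b) := by
  classical
  rw [finsum_eq_sum_of_support_subset _
    (s := ({⟨r, hr.out⟩, ⟨q, hq.out⟩} : Finset Nat.Primes)) fun i hi => by
      by_contra hni
      simp only [Finset.coe_insert, Finset.coe_singleton, Set.mem_insert_iff,
        Set.mem_singleton_iff, not_or] at hni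
      exact hi (h i (fun e => hni.1 (Subtype.ext e)) fun e => hni.2 (Subtype.ext e))]
  exact Finset.sum_pair (f := fun i : Nat.Primes => G i (tame i a b))
    (a := ⟨r, hr.out⟩) (b := ⟨q, hq.out⟩) fun e => hrq (congrArg Subtype.val e)

theorem units_zmod_two (x : Additive (ZMod 2)ˣ) : x = 0 := by
  have : Subsingleton (ZMod 2)ˣ := by
    rw [← Fintype.card_le_one_iff_subsingleton, ZMod.card_units]
  exact congrArg Additive.ofMul (Subsingleton.elim (Additive.toMul x) 1)

/-- **Tate's proof of quadratic reciprocity**: the Hilbert symbol at `2` is the product of the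
real symbol and the Legendre symbols of the tame symbols. -/
theorem dyadic_eq (a b : ℚˣ) :
    dyadic a b = realSymbol a b + ∑ᶠ q : Nat.Primes, legHom q (tame q a b) := by
  classical
  obtain ⟨⟨f0, g⟩, hfg₀, -⟩ := existsUnique_factor dyadic
  let G : ∀ (q : ℕ) [Fact q.Prime], Additive (ZMod q)ˣ →+ Additive ℤˣ :=
    fun q hq => g ⟨q, hq.out⟩
  have hfg : ∀ u v, dyadic u v = f0 (realSymbol u v) + ∑ᶠ q : Nat.Primes, G q (tame q u v) :=
    hfg₀
  have hzero : ∀ (u v : ℚˣ) (q : ℕ) [Fact q.Prime], val q u = 0 → val q v = 0 →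
      G q (tame q u v) = 0 :=
    fun u v q _ hu hv => by rw [tame_eq_zero hu hv, map_zero]
  -- the real factor
  have h0 : ∀ x, f0 x = x := fun x => by
    have h1 := hfg (-1) (-1)
    rw [finsum_eq_zero_of_forall_eq_zero (fun q : Nat.Primes =>
      hzero _ _ (q : ℕ) (by rw [val_neg, val_one]) (by rw [val_neg, val_one])), add_zero,
      realSymbol_neg_one] at h1
    have h2 : dyadic (-1) (-1) = Additive.ofMul (-1) := by
      show Additive.ofMul _ = _
      rw [val_neg, val_one, zpow_zero, mul_one, mul_one]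
      refine congrArg Additive.ofMul ?_
      rw [sign4, if_pos]
      have he : ((res8 (-1) : (ZMod (2 ^ 3))ˣ) : ZMod (2 ^ 3)) = 7 := by
        show PadicInt.toZModPow 3 _ = _
        rw [show (unitPartHom 2 (-1) : ℤ_[2]) = -1 from Subtype.ext (by
          push_cast
          rw [unitPartHom_of_val 2 (by rw [val_neg, val_one])]
          push_cast
          rfl), map_neg, map_one]
        decide
      exact ⟨Or.inr he, Or.inr he⟩
    rcases Int.units_eq_one_or (Additive.toMul x) with h | h
    · rw [show x = 0 from h, map_zero]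
    · rw [show x = Additive.ofMul (-1) from h]
      exact h1.symm.trans h2
  -- the tame factors
  have hg : ∀ (q : ℕ) [Fact q.Prime], G q = legHom q := by
    intro q
    induction q using Nat.strong_induction_on with
    | _ q ih =>
      intro hfact
      have hq : q.Prime := hfact.out
      rcases eq_or_ne q 2 with rfl | h2
      · exact AddMonoidHom.ext fun x => by rw [units_zmod_two x, map_zero, map_zero]
      refine eq_legHom h2 ?_
      have hodd : q % 2 = 1 := hq.eq_two_or_odd.resolve_left h2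
      have hqpos : (0 : ℚ) < (natUnit q : ℚˣ) := by
        rw [coe_natUnit hq.ne_zero]
        exact_mod_cast hq.pos
      have hv2 : val 2 (natUnit q) = 0 := val_natUnit_prime (r := 2) (q := q) (Ne.symm h2)
      rcases (show q % 4 = 3 ∨ q % 8 = 5 ∨ q % 8 = 1 by omega) with h | h | h
      · -- `-1` is a non-residue
        refine ⟨Additive.ofMul (resHom q (-1)), ?_⟩
        have h1 := hfg (-1) (natUnit q)
        rw [realSymbol_eq_zero hqpos, map_zero, zero_add,
          tame_finsum_single G _ _ q fun r _ hr =>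
            hzero _ _ r (by rw [val_neg, val_one]) (val_natUnit_prime hr),
          tame_natUnit_self (fun r _ => by rw [val_neg, val_one])] at h1
        rw [← h1]
        show Additive.ofMul _ = _
        rw [val_neg, val_one, hv2, zpow_zero, zpow_zero, mul_one, mul_one]
        refine congrArg Additive.ofMul ?_
        rw [sign4, if_pos]
        refine ⟨Or.inr ?_, ?_⟩
        · show PadicInt.toZModPow 3 _ = _
          rw [show (unitPartHom 2 (-1) : ℤ_[2]) = -1 from Subtype.ext (by
            push_cast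
            rw [unitPartHom_of_val 2 (by rw [val_neg, val_one])]
            push_cast
            rfl), map_neg, map_one]
          decide
        · rw [res8_natUnit hodd]
          rcases (show q % 8 = 3 ∨ q % 8 = 7 by omega) with e | e <;> rw [e]
          · exact Or.inl rfl
          · exact Or.inr rfl
      · -- `2` is a non-residue
        have hsm : natUnit 2 ∈ smooth q := natUnit_mem_of_lt two_ne_zero
          (lt_of_le_of_ne hq.two_le (Ne.symm h2))
        refine ⟨Additive.ofMul (resHom q (natUnit 2)), ?_⟩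
        have h1 := hfg (natUnit 2) (natUnit q)
        rw [realSymbol_eq_zero hqpos, map_zero, zero_add,
          tame_finsum_single G _ _ q fun r _ hr => by
            rcases eq_or_ne r 2 with rfl | e
            · rw [units_zmod_two (tame 2 (natUnit 2) (natUnit q)), map_zero]
            · exact hzero _ _ r (val_natUnit_prime e) (val_natUnit_prime hr),
          tame_natUnit_self hsm] at h1
        rw [← h1]
        show Additive.ofMul _ = _
        rw [val_natUnit_self, hv2, zpow_zero, mul_one, zpow_one]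
        refine congrArg Additive.ofMul ?_
        have hu2 : (res8 (natUnit 2) : ZMod (2 ^ 3)) = 1 := by
          show PadicInt.toZModPow 3 _ = _
          rw [show (unitPartHom 2 (natUnit 2) : ℤ_[2]) = 1 from Subtype.ext (by
            push_cast
            rw [coe_unitPartHom, val_natUnit_self, coe_natUnit two_ne_zero]
            norm_num), map_one]
        have hq5 : (res8 (natUnit q) : ZMod (2 ^ 3)) = 5 := by
          rw [res8_natUnit hodd, h]
          rfl
        rw [sign4, if_neg fun hh => by rw [hu2] at hh; exact absurd hh.1 (by decide), one_mul]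
        show sign8 _ = -1
        rw [sign8, if_pos (Or.inr hq5)]
      · -- Gauss's auxiliary prime
        obtain ⟨r, hr, hr2, hrq, hns⟩ := exists_prime_not_isSquare hq h
        have := Fact.mk hr
        have hsm : natUnit r ∈ smooth q := natUnit_mem_of_lt hr.ne_zero hrq
        refine ⟨Additive.ofMul (resHom q (natUnit r)), ?_⟩
        have h1 := hfg (natUnit r) (natUnit q)
        rw [realSymbol_eq_zero hqpos, map_zero, zero_add,
          tame_finsum_pair G _ _ r q hrq.ne fun i _ hir hiq =>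
            hzero _ _ i (val_natUnit_prime hir) (val_natUnit_prime hiq),
          ih r hrq,
          tame_natUnit_self hsm, tame_symm (val_natUnit_prime hrq.ne), map_neg] at h1
        have hd : dyadic (natUnit r) (natUnit q) = 0 := by
          show Additive.ofMul _ = _
          rw [hv2, val_natUnit_prime (r := 2) (q := r) (Ne.symm hr2), zpow_zero, zpow_zero,
            mul_one, mul_one, sign4, if_neg fun hh => by
              rw [res8_natUnit hodd, h] at hh
              exact absurd hh.2 (by decide)]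
          rfl
        have hleg : legHom r (Additive.ofMul (resHom r (natUnit q))) = Additive.ofMul (-1) := by
          refine congrArg Additive.ofMul (Units.ext ?_ : _ = (-1 : ℤˣ))
          refine (coe_legHom _).trans ?_
          rw [resHom_natUnit (fun hd => hrq.ne ((Nat.prime_dvd_prime_iff_eq hr hq).1 hd)),
            quadraticChar_neg_one_iff_not_isSquare.2 (by exact_mod_cast hns)]
          rfl
        rw [hd, hleg, eq_comm, add_comm] at h1
        rw [eq_neg_of_add_eq_zero_left h1, neg_neg]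
  rw [hfg a b, h0]
  exact congrArg _ (finsum_congr fun q => by rw [hg])

/-- Quadratic reciprocity from the structure of `K₂ ℚ`. -/
theorem reciprocity {p q : ℕ} [hp : Fact p.Prime] [hq : Fact q.Prime] (hp2 : p ≠ 2) (hq2 : q ≠ 2)
    (hpq : p ≠ q) :
    legendreSym p q * legendreSym q p = if p % 4 = 3 ∧ q % 4 = 3 then -1 else 1 := by
  classical
  have hop : p % 2 = 1 := hp.out.eq_two_or_odd.resolve_left hp2
  have hoq : q % 2 = 1 := hq.out.eq_two_or_odd.resolve_left hq2
  have h1 := dyadic_eq (natUnit p) (natUnit q)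
  have hsm : val q (natUnit p) = 0 := val_natUnit_prime hpq.symm
  rw [realSymbol_eq_zero (by rw [coe_natUnit hq.out.ne_zero]; exact_mod_cast hq.out.pos), zero_add,
    tame_finsum_pair (fun i _ => legHom i) _ _ p q hpq fun i _ hip hiq => by
      rw [tame_eq_zero (val_natUnit_prime hip) (val_natUnit_prime hiq), map_zero],
    tame_symm (val_natUnit_prime hpq),
    show tame q (natUnit p) (natUnit q) = Additive.ofMul (resHom q (natUnit p)) by
      show Additive.ofMul _ = _
      rw [val_natUnit_self, hsm]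
      simp, map_neg] at h1
  have h2 := congrArg (fun x : Additive ℤˣ => ((Additive.toMul x : ℤˣ) : ℤ)) h1
  simp only [toMul_add, toMul_neg, Units.val_mul, Int.units_inv_eq_self, coe_legHom] at h2
  rw [resHom_natUnit (fun hd => hpq ((Nat.prime_dvd_prime_iff_eq hp.out hq.out).1 hd)),
    resHom_natUnit (fun hd => hpq ((Nat.prime_dvd_prime_iff_eq hq.out hp.out).1 hd).symm),
    ← Int.cast_natCast (R := ZMod p), ← Int.cast_natCast (R := ZMod q)] at h2
  refine h2.symm.trans ?_
  show ((sign4 _ _ * sign8 _ ^ val 2 (natUnit p) * sign8 _ ^ val 2 (natUnit q) : ℤˣ) : ℤ) = _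
  rw [val_natUnit_prime (r := 2) (q := p) (Ne.symm hp2),
    val_natUnit_prime (r := 2) (q := q) (Ne.symm hq2), zpow_zero, zpow_zero, mul_one, mul_one,
    sign4, res8_natUnit hop, res8_natUnit hoq]
  rcases (show p % 8 = 1 ∨ p % 8 = 3 ∨ p % 8 = 5 ∨ p % 8 = 7 by omega) with e | e | e | e <;>
    rcases (show q % 8 = 1 ∨ q % 8 = 3 ∨ q % 8 = 5 ∨ q % 8 = 7 by omega) with e' | e' | e' | e' <;>
    rw [e, e', show p % 4 = p % 8 % 4 by omega, show q % 4 = q % 8 % 4 by omega, e, e'] <;> rfl

end Fermat.Agent.K2Rat
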