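import Mathlib

/-!
# Steinberg symbols and `K₂` of a field

`K₂` of a field is presented, after Matsumoto, by the symbols `{a, b}`, bimultiplicative and
trivial when `a + b = 1`. Symbols are skew-symmetric, and those of a finite field are trivial.
-/

set_option autoImplicit false

noncomputable section

namespace Fermat.Agent.K2Rat

/-- A Steinberg symbol on `F` with values in `A`. -/
structure SteinbergSymbol (F : Type*) [Field F] (A : Type*) [AddCommGroup A] where
  /-- The value at a pair. -/
  toFun : Fˣ → Fˣ → A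
  mul_left : ∀ a b c, toFun (a * b) c = toFun a c + toFun b c
  mul_right : ∀ a b c, toFun a (b * c) = toFun a b + toFun a c
  steinberg : ∀ a b : Fˣ, (a : F) + b = 1 → toFun a b = 0

namespace SteinbergSymbol

variable {F : Type*} [Field F] {A : Type*} [AddCommGroup A]

instance : CoeFun (SteinbergSymbol F A) fun _ => Fˣ → Fˣ → A := ⟨toFun⟩

variable (s : SteinbergSymbol F A)

/-- The symbol in its first argument. -/
def homLeft (b : Fˣ) : Additive Fˣ →+ A :=
  AddMonoidHom.mk' (fun a => s a.toMul b) fun a a' => s.mul_left a.toMul a'.toMul b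

/-- The symbol in its second argument. -/
def homRight (a : Fˣ) : Additive Fˣ →+ A :=
  AddMonoidHom.mk' (fun b => s a b.toMul) fun b b' => s.mul_right a b.toMul b'.toMul

theorem one_left (b : Fˣ) : s 1 b = 0 := map_zero (s.homLeft b)

theorem one_right (a : Fˣ) : s a 1 = 0 := map_zero (s.homRight a)

theorem inv_left (a b : Fˣ) : s a⁻¹ b = -s a b := map_neg (s.homLeft b) (Additive.ofMul a)

theorem inv_right (a b : Fˣ) : s a b⁻¹ = -s a b := map_neg (s.homRight a) (Additive.ofMul b)

theorem zpow_left (a b : Fˣ) (n : ℤ) : s (a ^ n) b = n • s a b :=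
  map_zsmul (s.homLeft b) n (Additive.ofMul a)

theorem zpow_right (a b : Fˣ) (n : ℤ) : s a (b ^ n) = n • s a b :=
  map_zsmul (s.homRight a) n (Additive.ofMul b)

theorem apply_neg (a : Fˣ) : s a (-a) = 0 := by
  rcases eq_or_ne (a : F) 1 with h | h
  · rw [show a = 1 from Units.ext h, s.one_left]
  have ha : (1 : F) - (a : F)⁻¹ ≠ 0 := sub_ne_zero.2 fun e =>
    h (by rw [← inv_inv (a : F), ← e, inv_one])
  set u := Units.mk0 (1 - (a : F)) (sub_ne_zero.2 (Ne.symm h))
  set v := Units.mk0 (1 - (a : F)⁻¹) ha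
  have h1 := s.steinberg a u (by simp [u])
  have h2 := s.steinberg a⁻¹ v (by simp [v])
  rw [s.inv_left, neg_eq_zero] at h2
  have he : -a = u * v⁻¹ := Units.ext (by
    simp only [Units.val_neg, Units.val_mul, Units.val_inv_eq_inv_val, u, v, Units.val_mk0]
    field_simp
    ring)
  rw [he, s.mul_right, s.inv_right, h1, h2, neg_zero, add_zero]

theorem skew (a b : Fˣ) : s a b + s b a = 0 := by
  have h := s.apply_neg (a * b)
  have ha := s.apply_neg a
  have hb := s.apply_neg b
  rw [show -(a * b) = -a * b by rw [neg_mul], s.mul_left, s.mul_right, s.mul_right, ha,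
    show -a = a * (-1) by rw [mul_neg, mul_one], s.mul_right, show s b (-1) = -s b b by
      rw [show -b = b * (-1) by rw [mul_neg, mul_one], s.mul_right] at hb
      exact eq_neg_of_add_eq_zero_right hb] at h
  rw [zero_add] at h
  rw [← h]
  abel

theorem self_eq (a : Fˣ) : s a a = s a (-1) := by
  have h := s.apply_neg a
  rw [show -a = a * (-1) by rw [mul_neg, mul_one], s.mul_right] at h
  have h2 : s a (-1) + s a (-1) = 0 := by
    rw [← s.mul_right, show (-1 : Fˣ) * -1 = 1 by simp, s.one_right]
  exact (eq_neg_of_add_eq_zero_left h).trans (neg_eq_of_add_eq_zero_left h2)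

/-- Postcomposition with a homomorphism. -/
def map {B : Type*} [AddCommGroup B] (f : A →+ B) : SteinbergSymbol F B where
  toFun a b := f (s a b)
  mul_left a b c := by rw [s.mul_left, map_add]
  mul_right a b c := by rw [s.mul_right, map_add]
  steinberg a b h := by rw [s.steinberg a b h, map_zero]

/-- Symbols of finite fields are trivial. -/
theorem eq_zero_of_finite [Finite F] (a b : Fˣ) : s a b = 0 := by
  classical
  have := Fintype.ofFinite F
  obtain ⟨g, hg⟩ := IsCyclic.exists_generator (α := Fˣ)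
  obtain ⟨i, rfl⟩ := Subgroup.mem_zpowers_iff.1 (hg a)
  obtain ⟨j, rfl⟩ := Subgroup.mem_zpowers_iff.1 (hg b)
  suffices h : s g g = 0 by rw [s.zpow_left, s.zpow_right, h, smul_zero, smul_zero]
  rw [s.self_eq]
  by_cases h2 : ringChar F = 2
  · have := ringChar.eq_iff.1 h2
    rw [show (-1 : Fˣ) = 1 from Units.ext (by simp [CharTwo.neg_eq]), s.one_right]
  -- two non-squares with sum one
  obtain ⟨x, hx, hx'⟩ : ∃ x : F, ¬ IsSquare x ∧ ¬ IsSquare (1 - x) := by
    by_contra! hall
    let N := Finset.univ.filter fun x : F => ¬ IsSquare x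
    let Q := (Finset.univ.filter fun x : F => IsSquare x) \ {0, 1}
    have hle : N.card ≤ Q.card := Finset.card_le_card_of_injOn (fun x => 1 - x) (fun x hx => by
      simp only [N, Finset.coe_filter, Finset.mem_univ, true_and, Set.mem_ofPred_eq] at hx
      simp only [Q, Finset.coe_sdiff, Set.mem_sdiff, Finset.coe_filter, Finset.mem_univ, true_and,
        Set.mem_ofPred_eq, Finset.coe_insert, Finset.coe_singleton, Set.mem_insert_iff,
        Set.mem_singleton_iff, not_or]
      exact ⟨hall x hx, fun e => hx ((sub_eq_zero.1 e).symm ▸ IsSquare.one),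
        fun e => hx ((sub_eq_self.1 e).symm ▸ IsSquare.zero)⟩)
      fun x _ y _ e => sub_right_injective e
    obtain ⟨c, hc⟩ := FiniteField.exists_nonsquare h2
    have hinj : (Finset.univ.filter fun x : F => IsSquare x).card ≤ N.card + 1 := by
      refine le_trans ?_ (Finset.card_insert_le 0 N)
      refine Finset.card_le_card_of_injOn (fun x => c * x) (fun x hx => ?_)
        fun x _ y _ e => mul_left_cancel₀ (fun e0 => hc (by rw [e0]; exact IsSquare.zero)) e
      simp only [Finset.coe_filter, Finset.mem_univ, true_and, Set.mem_ofPred_eq] at hx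
      simp only [Finset.coe_insert, Set.mem_insert_iff, N, Finset.coe_filter, Finset.mem_univ,
        true_and, Set.mem_ofPred_eq]
      rcases eq_or_ne x 0 with rfl | hx0
      · exact Or.inl (mul_zero c)
      · refine Or.inr fun hsq => hc ?_
        have := hsq.div hx
        rwa [mul_div_cancel_right₀ _ hx0] at this
    have hsub : ({0, 1} : Finset F) ⊆ Finset.univ.filter fun x : F => IsSquare x := by
      intro y hy
      rcases Finset.mem_insert.1 hy with rfl | hy
      · simp
      · rw [Finset.mem_singleton.1 hy]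
        simp
    have hQ : Q.card + 2 = (Finset.univ.filter fun x : F => IsSquare x).card := by
      have := Finset.card_sdiff_add_card_eq_card hsub
      rwa [Finset.card_pair zero_ne_one] at this
    omega
  have hx0 : x ≠ 0 := fun e => hx (e ▸ IsSquare.zero)
  have hx0' : 1 - x ≠ 0 := fun e => hx' (e ▸ IsSquare.zero)
  obtain ⟨m, hm⟩ := Subgroup.mem_zpowers_iff.1 (hg (Units.mk0 x hx0))
  obtain ⟨n, hn⟩ := Subgroup.mem_zpowers_iff.1 (hg (Units.mk0 _ hx0'))
  have hodd : ∀ (y : F) (hy : y ≠ 0) (k : ℤ), g ^ k = Units.mk0 y hy → ¬ IsSquare y → Odd k :=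
    fun y hy k hk hsq => Int.not_even_iff_odd.1 fun ⟨l, hl⟩ => hsq ⟨((g ^ l : Fˣ) : F), by
      rw [← Units.val_mul, ← zpow_add, ← hl, hk, Units.val_mk0]⟩
  obtain ⟨k, hk⟩ := (hodd _ _ m hm hx).mul (hodd _ _ n hn hx')
  have h := s.steinberg (g ^ m) (g ^ n) (by simp [hm, hn])
  rw [s.zpow_left, s.zpow_right, smul_smul, hk, s.self_eq, add_smul, one_smul,
    mul_comm, mul_smul] at h
  have h2' : (2 : ℤ) • s g (-1) = 0 := by
    rw [← s.zpow_right, show ((-1 : Fˣ)) ^ (2 : ℤ) = 1 by simp, s.one_right]
  rwa [h2', smul_zero, zero_add] at h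

end SteinbergSymbol

variable (F : Type*) [Field F]

/-- The relations of `K₂`. -/
def k2Rel : AddSubgroup (FreeAbelianGroup (Fˣ × Fˣ)) :=
  AddSubgroup.closure
    ({z | ∃ a b c, z = .of (a * b, c) - .of (a, c) - .of (b, c)} ∪
      {z | ∃ a b c, z = .of (a, b * c) - .of (a, b) - .of (a, c)} ∪
      {z | ∃ a b : Fˣ, (a : F) + b = 1 ∧ z = .of (a, b)})

/-- **`K₂` of a field**, by Matsumoto's presentation. -/
abbrev K2 : Type _ := FreeAbelianGroup (Fˣ × Fˣ) ⧸ k2Rel F

/-- The universal symbol. -/
def univSymbol : SteinbergSymbol F (K2 F) where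
  toFun a b := QuotientAddGroup.mk (.of (a, b))
  mul_left a b c := by
    rw [← QuotientAddGroup.mk_add, QuotientAddGroup.eq_iff_sub_mem, ← sub_sub]
    exact AddSubgroup.subset_closure (Or.inl (Or.inl ⟨a, b, c, rfl⟩))
  mul_right a b c := by
    rw [← QuotientAddGroup.mk_add, QuotientAddGroup.eq_iff_sub_mem, ← sub_sub]
    exact AddSubgroup.subset_closure (Or.inl (Or.inr ⟨a, b, c, rfl⟩))
  steinberg a b h :=
    (QuotientAddGroup.eq_zero_iff _).2 (AddSubgroup.subset_closure (Or.inr ⟨a, b, h, rfl⟩))

variable {F} {A : Type*} [AddCommGroup A]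

/-- The homomorphism of a symbol. -/
def lift (s : SteinbergSymbol F A) : K2 F →+ A :=
  QuotientAddGroup.lift (k2Rel F) (FreeAbelianGroup.lift fun x => s x.1 x.2) (by
    rw [k2Rel, AddSubgroup.closure_le]
    rintro z ((⟨a, b, c, rfl⟩ | ⟨a, b, c, rfl⟩) | ⟨a, b, h, rfl⟩)
    · simp [s.mul_left]
    · simp [s.mul_right]
    · simp [s.steinberg a b h])

theorem lift_univSymbol (s : SteinbergSymbol F A) (a b : Fˣ) :
    lift s (univSymbol F a b) = s a b := by
  show FreeAbelianGroup.lift _ (FreeAbelianGroup.of (a, b)) = _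
  rw [FreeAbelianGroup.lift_apply_of]

theorem hom_ext {f g : K2 F →+ A}
    (h : ∀ a b, f (univSymbol F a b) = g (univSymbol F a b)) : f = g :=
  QuotientAddGroup.addMonoidHom_ext _ (FreeAbelianGroup.lift_ext _ _ fun x => h x.1 x.2)

/-- `K₂` is generated by the symbols. -/
theorem closure_range_univSymbol :
    AddSubgroup.closure (Set.range fun x : Fˣ × Fˣ => univSymbol F x.1 x.2) = ⊤ := by
  refine (AddSubgroup.eq_top_iff' _).2 fun z => ?_
  obtain ⟨z, rfl⟩ := QuotientAddGroup.mk_surjective z
  induction z using FreeAbelianGroup.induction_on with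
  | zero => exact zero_mem _
  | of x => exact AddSubgroup.subset_closure ⟨x, rfl⟩
  | neg x hx => exact neg_mem hx
  | add x y hx hy => exact add_mem hx hy

end Fermat.Agent.K2Rat
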