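import Fermat.Agent.K2Rat.Symbol

/-!
# The tame symbols and the real symbol of `ℚ`

A non-zero rational is a power of `p` times a unit of `ℤ_p`. For `a + b = 1` the four possible
shapes of the valuations show that the tame symbol is a Steinberg symbol.
-/

set_option autoImplicit false

noncomputable section

namespace Fermat.Agent.K2Rat

variable (p : ℕ) [hp : Fact p.Prime]

/-- The valuation at `p`. -/
def val (a : ℚˣ) : ℤ := padicValRat p (a : ℚ)

theorem val_mul (a b : ℚˣ) : val p (a * b) = val p a + val p b := by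
  rw [val, Units.val_mul, padicValRat.mul a.ne_zero b.ne_zero]
  rfl

omit hp in
theorem val_one : val p 1 = 0 := by simp [val]

theorem norm_mul_zpow (a : ℚˣ) : ‖((a : ℚ) : ℚ_[p]) * (p : ℚ_[p]) ^ (-val p a)‖ = 1 := by
  have hp0 : (p : ℝ) ≠ 0 := Nat.cast_ne_zero.2 hp.out.ne_zero
  rw [norm_mul, norm_zpow, Padic.norm_p,
    Padic.norm_eq_zpow_neg_valuation (Rat.cast_ne_zero.2 a.ne_zero), Padic.valuation_ratCast,
    inv_zpow', neg_neg, ← zpow_add₀ hp0, val, neg_add_cancel, zpow_zero]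

/-- The unit part. -/
def unitPartHom : ℚˣ →* ℤ_[p]ˣ :=
  MonoidHom.mk' (fun a => PadicInt.mkUnits (norm_mul_zpow p a)) fun a b => Units.ext <|
    Subtype.ext <| by
      show ((↑(a * b) : ℚ) : ℚ_[p]) * (p : ℚ_[p]) ^ (-val p (a * b)) = (_ * _) * (_ * _)
      rw [val_mul, neg_add, zpow_add₀ (Nat.cast_ne_zero.2 hp.out.ne_zero), Units.val_mul,
        Rat.cast_mul]
      ring

theorem coe_unitPartHom (a : ℚˣ) : ((unitPartHom p a : ℤ_[p]) : ℚ_[p]) =
    ((a : ℚ) : ℚ_[p]) * (p : ℚ_[p]) ^ (-val p a) := rfl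

theorem unitPartHom_of_val {a : ℚˣ} (h : val p a = 0) :
    ((unitPartHom p a : ℤ_[p]) : ℚ_[p]) = ((a : ℚ) : ℚ_[p]) := by
  rw [coe_unitPartHom, h, neg_zero, zpow_zero, mul_one]

variable {p}

/-- The shapes of `a + b = 1`. -/
theorem cases_of_add_eq_one {a b : ℚˣ} (h : (a : ℚ) + b = 1) :
    (∃ m : ℕ, val p a = m + 1 ∧ val p b = 0 ∧
        (unitPartHom p b : ℤ_[p]) + (p : ℤ_[p]) ^ (m + 1) * unitPartHom p a = 1) ∨
      (∃ m : ℕ, val p b = m + 1 ∧ val p a = 0 ∧
        (unitPartHom p a : ℤ_[p]) + (p : ℤ_[p]) ^ (m + 1) * unitPartHom p b = 1) ∨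
      (val p a = 0 ∧ val p b = 0) ∨
      (∃ m : ℕ, val p a = -(m + 1 : ℤ) ∧ val p b = -(m + 1 : ℤ) ∧
        (unitPartHom p a : ℤ_[p]) + unitPartHom p b = (p : ℤ_[p]) ^ (m + 1)) := by
  have h1 : min (val p a) (val p b) ≤ 0 := by
    have := padicValRat.min_le_padicValRat_add (p := p) (q := (a : ℚ)) (r := (b : ℚ))
      (by rw [h]; exact one_ne_zero)
    rwa [h, padicValRat.one] at this
  have h2 : min 0 (val p a) ≤ val p b := by
    have := padicValRat.min_le_padicValRat_add (p := p) (q := 1) (r := -(a : ℚ))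
      (by rw [← h, add_neg_cancel_comm]; exact b.ne_zero)
    rwa [padicValRat.one, padicValRat.neg, ← h, add_neg_cancel_comm] at this
  have h3 : min 0 (val p b) ≤ val p a := by
    have := padicValRat.min_le_padicValRat_add (p := p) (q := 1) (r := -(b : ℚ))
      (by rw [← h, add_neg_cancel_right]; exact a.ne_zero)
    rwa [padicValRat.one, padicValRat.neg, ← h, add_neg_cancel_right] at this
  have hsum := congrArg (Rat.cast : ℚ → ℚ_[p]) h
  push_cast at hsum
  have hp0 : (p : ℚ_[p]) ≠ 0 := Nat.cast_ne_zero.2 hp.out.ne_zero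
  have hca := coe_unitPartHom p a
  have hcb := coe_unitPartHom p b
  have hpow : ∀ m : ℕ, (p : ℚ_[p]) ^ (-((m + 1 : ℕ) : ℤ)) * (p : ℚ_[p]) ^ (m + 1) = 1 := fun m => by
    rw [zpow_neg, zpow_natCast, inv_mul_cancel₀ (pow_ne_zero _ hp0)]
  rcases lt_trichotomy (val p a) 0 with ha | ha | ha
  · have hb : val p b = val p a := by omega
    obtain ⟨m, hm⟩ : ∃ m : ℕ, val p a = -(m + 1 : ℤ) := ⟨(-val p a - 1).toNat, by omega⟩
    refine Or.inr (Or.inr (Or.inr ⟨m, hm, hb.trans hm, Subtype.ext ?_⟩))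
    push_cast
    rw [hca, hcb, hb, hm, neg_neg, ← add_mul, hsum, one_mul]
    exact_mod_cast zpow_natCast (p : ℚ_[p]) (m + 1)
  · rcases eq_or_lt_of_le (show 0 ≤ val p b by omega) with hb | hb
    · exact Or.inr (Or.inr (Or.inl ⟨ha, hb.symm⟩))
    obtain ⟨m, hm⟩ : ∃ m : ℕ, val p b = m + 1 := ⟨(val p b - 1).toNat, by omega⟩
    refine Or.inr (Or.inl ⟨m, hm, ha, Subtype.ext ?_⟩)
    push_cast
    rw [hca, hcb, ha, hm, neg_zero, zpow_zero, mul_one]
    have := hpow m
    push_cast at this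
    linear_combination hsum + ((b : ℚ) : ℚ_[p]) * this
  · have hb : val p b = 0 := by omega
    obtain ⟨m, hm⟩ : ∃ m : ℕ, val p a = m + 1 := ⟨(val p a - 1).toNat, by omega⟩
    refine Or.inl ⟨m, hm, hb, Subtype.ext ?_⟩
    push_cast
    rw [hca, hcb, hb, hm, neg_zero, zpow_zero, mul_one]
    have := hpow m
    push_cast at this
    linear_combination hsum + ((a : ℚ) : ℚ_[p]) * this

variable (p)

/-- The unit part modulo `p`. -/
def resHom : ℚˣ →* (ZMod p)ˣ :=
  (Units.map (PadicInt.toZMod : ℤ_[p] →+* ZMod p).toMonoidHom).comp (unitPartHom p)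

theorem val_resHom (a : ℚˣ) :
    ((resHom p a : (ZMod p)ˣ) : ZMod p) = PadicInt.toZMod (unitPartHom p a : ℤ_[p]) := rfl

/-- **The tame symbol at `p`.** -/
def tame : SteinbergSymbol ℚ (Additive (ZMod p)ˣ) where
  toFun a b := Additive.ofMul
    ((-1) ^ (val p a * val p b) * resHom p a ^ val p b / resHom p b ^ val p a)
  mul_left a b c := by
    rw [← ofMul_mul]
    refine congrArg Additive.ofMul ?_
    rw [val_mul, map_mul, add_mul, zpow_add, mul_zpow, zpow_add, div_mul_div_comm]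
    exact congrArg (· / _) (mul_mul_mul_comm _ _ _ _)
  mul_right a b c := by
    rw [← ofMul_mul]
    refine congrArg Additive.ofMul ?_
    rw [val_mul, map_mul, mul_add, zpow_add, mul_zpow, zpow_add, div_mul_div_comm]
    exact congrArg (· / _) (mul_mul_mul_comm _ _ _ _)
  steinberg a b h := by
    refine ofMul_eq_zero.2 (div_eq_one.2 ?_)
    have hp : PadicInt.toZMod (p : ℤ_[p]) = (0 : ZMod p) := by rw [map_natCast, ZMod.natCast_self]
    rcases cases_of_add_eq_one (p := p) h with ⟨m, ha, hb, he⟩ | ⟨m, hb, ha, he⟩ | ⟨ha, hb⟩ |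
      ⟨m, ha, hb, he⟩
    · have h1 : resHom p b = 1 := Units.ext (by
        have := congrArg PadicInt.toZMod he
        rw [map_add, map_mul, map_pow, hp, zero_pow m.succ_ne_zero, zero_mul, add_zero, map_one]
          at this
        exact this)
      simp [hb, h1]
    · have h1 : resHom p a = 1 := Units.ext (by
        have := congrArg PadicInt.toZMod he
        rw [map_add, map_mul, map_pow, hp, zero_pow m.succ_ne_zero, zero_mul, add_zero, map_one]
          at this
        exact this)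
      simp [ha, h1]
    · simp [ha, hb]
    · have h1 : resHom p b = -1 * resHom p a := Units.ext (by
        have := congrArg PadicInt.toZMod he
        rw [map_add, map_pow, hp, zero_pow m.succ_ne_zero] at this
        rw [Units.val_mul, Units.val_neg, Units.val_one, neg_one_mul]
        exact eq_neg_of_add_eq_zero_right this)
      rw [ha, hb, h1, mul_zpow]
      refine congrArg (· * _) ?_
      obtain ⟨k, hk⟩ : Even (-(m + 1 : ℤ) * -(m + 1 : ℤ) - -(m + 1 : ℤ)) := by
        rw [show -(m + 1 : ℤ) * -(m + 1 : ℤ) - -(m + 1 : ℤ) = (m + 1 : ℤ) * ((m + 1 : ℤ) + 1) by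
          ring]
        exact Int.even_mul_succ_self _
      rw [show -(m + 1 : ℤ) * -(m + 1 : ℤ) = 2 * k + -(m + 1 : ℤ) by linarith, zpow_add, zpow_mul,
        show ((-1 : (ZMod p)ˣ)) ^ (2 : ℤ) = 1 by simp, one_zpow, one_mul]

/-- **The real symbol.** -/
def realSymbol : SteinbergSymbol ℚ (Additive ℤˣ) where
  toFun a b := Additive.ofMul (if (a : ℚ) < 0 ∧ (b : ℚ) < 0 then -1 else 1)
  mul_left a b c := by
    rw [← ofMul_mul]
    refine congrArg Additive.ofMul ?_
    rcases a.ne_zero.lt_or_gt with ha | ha <;> rcases b.ne_zero.lt_or_gt with hb | hb <;>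
      rcases c.ne_zero.lt_or_gt with hc | hc <;>
      simp [mul_neg_iff, ha, hb, hc, ha.not_gt, hb.not_gt, hc.not_gt]
  mul_right a b c := by
    rw [← ofMul_mul]
    refine congrArg Additive.ofMul ?_
    rcases a.ne_zero.lt_or_gt with ha | ha <;> rcases b.ne_zero.lt_or_gt with hb | hb <;>
      rcases c.ne_zero.lt_or_gt with hc | hc <;>
      simp [mul_neg_iff, ha, hb, hc, ha.not_gt, hb.not_gt, hc.not_gt]
  steinberg a b h := by
    refine ofMul_eq_zero.2 (if_neg fun ⟨ha, hb⟩ => ?_)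
    linarith

end Fermat.Agent.K2Rat
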