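import Fermat.Agent.K2Rat.Tame

/-!
# Tate's computation of `K₂` of `ℚ`

The symbols of the rationals whose numerators and denominators have their prime factors below `n`
filter `K₂ ℚ`. By one Steinberg relation the step at a prime `p` is generated by the symbols
`{x, p}` with `x` a residue, which the tame symbol at `p` separates.
-/

set_option autoImplicit false

noncomputable section

open scoped DirectSum

namespace Fermat.Agent.K2Rat

local notation "sy" => univSymbol ℚ

/-- A prime of `Nat.Primes` as a fact. -/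
theorem primesFact (q : Nat.Primes) : Fact (q : ℕ).Prime := ⟨q.2⟩

attribute [local instance] primesFact

/-- The units with all prime factors below `n`. -/
def smooth (n : ℕ) : Subgroup ℚˣ where
  carrier := {a | ∀ q : Nat.Primes, n ≤ q → val q a = 0}
  one_mem' q _ := val_one (q : ℕ)
  mul_mem' {a b} ha hb q hq := by rw [val_mul, ha q hq, hb q hq, add_zero]
  inv_mem' {a} ha q hq := by
    show padicValRat q ((a⁻¹ : ℚˣ) : ℚ) = 0
    rw [Units.val_inv_eq_inv_val, padicValRat.inv, neg_eq_zero]
    exact ha q hq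

theorem smooth_mono {m n : ℕ} (h : m ≤ n) : smooth m ≤ smooth n :=
  fun _ ha q hq => ha q (h.trans hq)

theorem val_zpow (p : ℕ) [Fact p.Prime] (a : ℚˣ) (k : ℤ) : val p (a ^ k) = k * val p a := by
  let f : Additive ℚˣ →+ ℤ :=
    AddMonoidHom.mk' (fun a => val p a.toMul) fun a b => val_mul p a.toMul b.toMul
  exact (map_zsmul f k (Additive.ofMul a)).trans (smul_eq_mul _ _)

theorem val_neg (p : ℕ) (a : ℚˣ) : val p (-a) = val p a := padicValRat.neg _

/-- A natural number as a unit, zero giving one. -/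
def natUnit (x : ℕ) : ℚˣ := if h : (x : ℚ) = 0 then 1 else Units.mk0 x h

theorem coe_natUnit {x : ℕ} (h : x ≠ 0) : ((natUnit x : ℚˣ) : ℚ) = x := by
  rw [natUnit, dif_neg (Nat.cast_ne_zero.2 h), Units.val_mk0]

theorem natUnit_one : natUnit 1 = 1 := Units.ext (by rw [coe_natUnit one_ne_zero]; simp)

theorem natUnit_mul {x y : ℕ} (hx : x ≠ 0) (hy : y ≠ 0) :
    natUnit (x * y) = natUnit x * natUnit y := Units.ext (by
  rw [Units.val_mul, coe_natUnit (mul_ne_zero hx hy), coe_natUnit hx, coe_natUnit hy, Nat.cast_mul])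

theorem val_natUnit (q : ℕ) {x : ℕ} (hx : x ≠ 0) : val q (natUnit x) = padicValNat q x := by
  rw [val, coe_natUnit hx, padicValRat.of_nat]

theorem natUnit_mem {n x : ℕ} (hx : x ≠ 0) (h : ∀ q : ℕ, q.Prime → q ∣ x → q < n) :
    natUnit x ∈ smooth n := fun q hq => by
  rw [val_natUnit _ hx, padicValNat.eq_zero_of_not_dvd fun hd =>
    absurd (h q q.2 hd) (not_lt.2 hq), Nat.cast_zero]

theorem natUnit_mem_of_lt {n x : ℕ} (hx : x ≠ 0) (h : x < n) : natUnit x ∈ smooth n :=
  natUnit_mem hx fun _ _ hd => lt_of_le_of_lt (Nat.le_of_dvd (Nat.pos_of_ne_zero hx) hd) h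

theorem mem_smooth_succ_natUnit (p : ℕ) (hp : p.Prime) : natUnit p ∈ smooth (p + 1) :=
  natUnit_mem_of_lt hp.ne_zero p.lt_succ_self

/-- The subgroup of the symbols of smooth units. -/
def filtration (n : ℕ) : AddSubgroup (K2 ℚ) :=
  AddSubgroup.closure {z | ∃ a ∈ smooth n, ∃ b ∈ smooth n, z = sy a b}

theorem sy_mem {n : ℕ} {a b : ℚˣ} (ha : a ∈ smooth n) (hb : b ∈ smooth n) :
    sy a b ∈ filtration n := AddSubgroup.subset_closure ⟨a, ha, b, hb, rfl⟩

theorem filtration_mono {m n : ℕ} (h : m ≤ n) : filtration m ≤ filtration n :=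
  AddSubgroup.closure_mono fun _ ⟨a, ha, b, hb, e⟩ =>
    ⟨a, smooth_mono h ha, b, smooth_mono h hb, e⟩

theorem exists_mem_smooth (a : ℚˣ) : ∃ n, a ∈ smooth n := by
  refine ⟨(a : ℚ).num.natAbs + (a : ℚ).den + 1, fun q hq => ?_⟩
  rw [val, padicValRat_def, padicValInt, padicValNat.eq_zero_of_not_dvd,
    padicValNat.eq_zero_of_not_dvd]
  · simp
  · exact fun hd => by have := Nat.le_of_dvd (a : ℚ).den_pos hd; omega
  · exact fun hd => by
      have := Nat.le_of_dvd (Int.natAbs_pos.2 (Rat.num_ne_zero.2 a.ne_zero)) hd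
      omega

theorem exists_mem_filtration (w : K2 ℚ) : ∃ n, w ∈ filtration n := by
  have h : w ∈ AddSubgroup.closure (Set.range fun x : ℚˣ × ℚˣ => sy x.1 x.2) := by
    rw [closure_range_univSymbol]
    trivial
  induction h using AddSubgroup.closure_induction with
  | mem z hz =>
    obtain ⟨⟨a, b⟩, rfl⟩ := hz
    obtain ⟨m, hm⟩ := exists_mem_smooth a
    obtain ⟨n, hn⟩ := exists_mem_smooth b
    exact ⟨max m n, sy_mem (smooth_mono (le_max_left m n) hm) (smooth_mono (le_max_right m n) hn)⟩
  | zero => exact ⟨0, zero_mem _⟩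
  | add x y _ _ hx hy =>
    obtain ⟨m, hm⟩ := hx
    obtain ⟨n, hn⟩ := hy
    exact ⟨max m n, add_mem (filtration_mono (le_max_left m n) hm)
      (filtration_mono (le_max_right m n) hn)⟩
  | neg x _ hx =>
    obtain ⟨m, hm⟩ := hx
    exact ⟨m, neg_mem hm⟩

section Step

variable {p : ℕ} [hp : Fact p.Prime]

/-- The Steinberg relation behind multiplicativity. -/
theorem sy_div_mem {x y z : ℕ} (hx0 : x ≠ 0) (hy0 : y ≠ 0) (hz0 : z ≠ 0) (hx : x < p) (hy : y < p)
    (hz : z < p) (h : x * y % p = z) :
    sy (natUnit z / (natUnit x * natUnit y)) (natUnit p) ∈ filtration p := by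
  set k := x * y / p
  have hdm : z + p * k = x * y := by rw [← h]; exact Nat.mod_add_div _ _
  rcases Nat.eq_zero_or_pos k with hk | hk
  · rw [hk, mul_zero, add_zero] at hdm
    rw [← natUnit_mul hx0 hy0, ← hdm, div_self', (univSymbol ℚ).one_left]
    exact zero_mem _
  have hkp : k < p := Nat.div_lt_of_lt_mul (Nat.mul_lt_mul_of_lt_of_lt hx hy)
  set u := natUnit z / (natUnit x * natUnit y)
  set v := natUnit k / (natUnit x * natUnit y)
  have hu : u ∈ smooth p := div_mem (natUnit_mem_of_lt hz0 hz)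
    (mul_mem (natUnit_mem_of_lt hx0 hx) (natUnit_mem_of_lt hy0 hy))
  have hv : v ∈ smooth p := div_mem (natUnit_mem_of_lt hk.ne' hkp)
    (mul_mem (natUnit_mem_of_lt hx0 hx) (natUnit_mem_of_lt hy0 hy))
  have hst := (univSymbol ℚ).steinberg u (natUnit p * v) (by
    simp only [u, v, Units.val_mul, Units.val_div_eq_div_val, coe_natUnit hx0, coe_natUnit hy0,
      coe_natUnit hz0, coe_natUnit hk.ne', coe_natUnit hp.out.ne_zero]
    have hd : (z : ℚ) + p * k = x * y := by exact_mod_cast hdm
    field_simp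
    linear_combination hd)
  rw [(univSymbol ℚ).mul_right] at hst
  rw [eq_neg_of_add_eq_zero_left hst]
  exact neg_mem (sy_mem hu hv)

/-- Modulo the lower symbols `{x, p}` only depends on the residue of `x`. -/
theorem sy_sub_mem : ∀ x : ℕ, x ≠ 0 → (∀ q : ℕ, q.Prime → q ∣ x → q < p) →
    sy (natUnit x) (natUnit p) - sy (natUnit (x % p)) (natUnit p) ∈ filtration p := by
  intro x
  induction x using Nat.strong_induction_on with
  | _ x ih =>
    intro hx0 hs
    rcases lt_or_ge x p with hlt | hge
    · rw [Nat.mod_eq_of_lt hlt, sub_self]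
      exact zero_mem _
    have hx1 : x ≠ 1 := by have := hp.out.one_lt; omega
    obtain ⟨q, hq, y, rfl⟩ := Nat.exists_prime_and_dvd hx1
    have hqp := hs q hq (dvd_mul_right q y)
    have hy0 : y ≠ 0 := right_ne_zero_of_mul hx0
    have hys : ∀ r : ℕ, r.Prime → r ∣ y → r < p :=
      fun r hr hd => hs r hr (dvd_mul_of_dvd_right hd q)
    have hlt : y < q * y := lt_mul_left (Nat.pos_of_ne_zero hy0) hq.one_lt
    have hr0 : y % p ≠ 0 := fun e =>
      (hys p hp.out (Nat.dvd_of_mod_eq_zero e)).false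
    have hxr0 : q * y % p ≠ 0 := fun e =>
      (hs p hp.out (Nat.dvd_of_mod_eq_zero e)).false
    have h1 := ih y hlt hy0 hys
    have h2 := sy_div_mem hq.ne_zero hr0 hxr0 hqp (Nat.mod_lt _ hp.out.pos)
      (Nat.mod_lt _ hp.out.pos) (Nat.mul_mod_mod q y p)
    rw [div_eq_mul_inv, mul_inv, (univSymbol ℚ).mul_left, (univSymbol ℚ).mul_left,
      (univSymbol ℚ).inv_left, (univSymbol ℚ).inv_left] at h2
    rw [natUnit_mul hq.ne_zero hy0, (univSymbol ℚ).mul_left]
    convert sub_mem h1 h2 using 1
    abel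

/-- **Only the residue matters.** -/
theorem sy_mem_of_resHom {u : ℚˣ} (hu : u ∈ smooth p) (h : resHom p u = 1) :
    sy u (natUnit p) ∈ filtration p := by
  set N := (u : ℚ).num.natAbs
  set D := (u : ℚ).den
  have hN : N ≠ 0 := Int.natAbs_ne_zero.2 (Rat.num_ne_zero.2 u.ne_zero)
  have hD : D ≠ 0 := (u : ℚ).den_ne_zero
  have hsm : ∀ q : ℕ, q.Prime → (q ∣ N → q < p) ∧ (q ∣ D → q < p) := fun q hq => by
    have := Fact.mk hq
    rw [← not_le]
    have key : p ≤ q → ¬ q ∣ N ∧ ¬ q ∣ D := fun hle => by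
      have h0 : val q u = 0 := hu ⟨q, hq⟩ hle
      rw [val, padicValRat_def, padicValInt] at h0
      constructor <;> intro hd
      · have h1 : padicValNat q D = 0 := padicValNat.eq_zero_of_not_dvd fun hd' =>
          hq.ne_one (Nat.eq_one_of_dvd_coprimes (u : ℚ).reduced hd hd')
        have := one_le_padicValNat_of_dvd hN hd
        simp only [N, D] at h0 h1 this ⊢
        rw [h1] at h0
        omega
      · have h1 : padicValNat q N = 0 := padicValNat.eq_zero_of_not_dvd fun hd' =>
          hq.ne_one (Nat.eq_one_of_dvd_coprimes (u : ℚ).reduced hd' hd)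
        have := one_le_padicValNat_of_dvd hD hd
        simp only [N, D] at h0 h1 this ⊢
        rw [h1] at h0
        omega
    exact ⟨fun hd hle => (key hle).1 hd, fun hd hle => (key hle).2 hd⟩
  have hres : ((u : ℚ).num : ZMod p) = (D : ZMod p) := by
    have h0 : val p u = 0 := hu ⟨p, hp.out⟩ le_rfl
    have he : (unitPartHom p u : ℤ_[p]) * (D : ℤ_[p]) = ((u : ℚ).num : ℤ_[p]) := Subtype.ext (by
      push_cast
      rw [unitPartHom_of_val p h0]
      exact_mod_cast congrArg (Rat.cast : ℚ → ℚ_[p]) (u : ℚ).mul_den_eq_num)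
    have := congrArg PadicInt.toZMod he
    rw [map_mul, map_natCast, map_intCast, ← val_resHom, h, Units.val_one, one_mul] at this
    exact this.symm
  have hNs := sy_sub_mem N hN fun q hq => (hsm q hq).1
  have hDs := sy_sub_mem D hD fun q hq => (hsm q hq).2
  rcases u.ne_zero.lt_or_gt with hneg | hpos
  swap
  · have hu' : u = natUnit N / natUnit D := Units.ext (by
      rw [Units.val_div_eq_div_val, coe_natUnit hN, coe_natUnit hD, Nat.cast_natAbs,
        abs_of_pos (Rat.num_pos.2 hpos), Rat.num_div_den])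
    have hmod : N % p = D % p := by
      rw [← ZMod.natCast_eq_natCast_iff', ← hres]
      simp [N, Nat.cast_natAbs, abs_of_pos (Rat.num_pos.2 hpos)]
    rw [hu', div_eq_mul_inv, (univSymbol ℚ).mul_left, (univSymbol ℚ).inv_left]
    rw [hmod] at hNs
    convert sub_mem hNs hDs using 1
    abel
  -- a negative unit: `-1` is replaced by `p - 1`
  have hp1 : p - 1 ≠ 0 := by have := hp.out.two_le; omega
  have hu' : u = -(natUnit N / natUnit D) := Units.ext (by
    rw [Units.val_neg, Units.val_div_eq_div_val, coe_natUnit hN, coe_natUnit hD, Nat.cast_natAbs,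
      abs_of_neg (Rat.num_neg.2 hneg), Int.cast_neg, neg_div, neg_neg, Rat.num_div_den])
  have hPs := sy_sub_mem (p := p) ((p - 1) * D) (mul_ne_zero hp1 hD) fun q hq hd => by
    rcases (hq.dvd_mul.1 hd) with hd | hd
    · have := Nat.le_of_dvd (Nat.pos_of_ne_zero hp1) hd
      omega
    · exact (hsm q hq).2 hd
  have hmod : N % p = (p - 1) * D % p := by
    rw [← ZMod.natCast_eq_natCast_iff', Nat.cast_mul, Nat.cast_sub hp.out.one_le, ← hres]
    simp [N, Nat.cast_natAbs, abs_of_neg (Rat.num_neg.2 hneg)]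
  rw [hmod] at hNs
  have hst : sy (-natUnit (p - 1)) (natUnit p) = 0 := (univSymbol ℚ).steinberg _ _ (by
    rw [Units.val_neg, coe_natUnit hp1, coe_natUnit hp.out.ne_zero, Nat.cast_sub hp.out.one_le]
    ring)
  rw [show -natUnit (p - 1) = -1 * natUnit (p - 1) by rw [neg_one_mul], (univSymbol ℚ).mul_left]
    at hst
  rw [natUnit_mul hp1 hD, (univSymbol ℚ).mul_left] at hPs
  rw [hu', ← neg_one_mul, (univSymbol ℚ).mul_left, div_eq_mul_inv, (univSymbol ℚ).mul_left,
    (univSymbol ℚ).inv_left, eq_neg_of_add_eq_zero_left hst]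
  convert sub_mem hNs hPs using 1
  abel

theorem val_natUnit_self : val p (natUnit p) = 1 := by
  rw [val_natUnit _ hp.out.ne_zero, padicValNat_self, Nat.cast_one]

/-- The step of the filtration is generated by the `{u, p}`. -/
theorem exists_sub_mem {w : K2 ℚ} (hw : w ∈ filtration (p + 1)) :
    ∃ u ∈ smooth p, w - sy u (natUnit p) ∈ filtration p := by
  set P := natUnit p
  have hdec : ∀ a ∈ smooth (p + 1), a * P ^ (-val p a) ∈ smooth p := fun a ha q hq => by
    rw [val_mul, val_zpow]
    rcases eq_or_lt_of_le hq with rfl | hlt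
    · rw [val_natUnit_self, mul_one, add_neg_cancel]
    · rw [ha q hlt, mem_smooth_succ_natUnit p hp.out q hlt, mul_zero, add_zero]
  induction hw using AddSubgroup.closure_induction with
  | mem z hz =>
    obtain ⟨a, ha, b, hb, rfl⟩ := hz
    set i := val p a
    set j := val p b
    set a' := a * P ^ (-i) with ha'
    set b' := b * P ^ (-j) with hb'
    refine ⟨a' ^ j * b' ^ (-i) * (-1) ^ (i * j), mul_mem (mul_mem (zpow_mem (hdec a ha) _)
      (zpow_mem (hdec b hb) _)) (zpow_mem ?_ _), ?_⟩
    · exact fun q _ => by rw [val_neg, val_one]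
    convert (show sy a' b' ∈ filtration p from sy_mem (hdec a ha) (hdec b hb)) using 1
    have ea : a = a' * P ^ i := by
      rw [ha', mul_assoc, ← zpow_add, neg_add_cancel, zpow_zero, mul_one]
    have eb : b = b' * P ^ j := by
      rw [hb', mul_assoc, ← zpow_add, neg_add_cancel, zpow_zero, mul_one]
    clear_value a' b' i j
    conv_lhs => rw [ea, eb]
    simp only [SteinbergSymbol.mul_left, SteinbergSymbol.mul_right, SteinbergSymbol.zpow_left,
      SteinbergSymbol.zpow_right]
    rw [eq_neg_of_add_eq_zero_left ((univSymbol ℚ).skew P b'), (univSymbol ℚ).self_eq,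
      eq_neg_of_add_eq_zero_left ((univSymbol ℚ).skew P (-1))]
    have h2 : sy (-1) P + sy (-1) P = 0 := by
      rw [← (univSymbol ℚ).mul_left, show (-1 : ℚˣ) * -1 = 1 by simp, (univSymbol ℚ).one_left]
    rw [neg_eq_of_add_eq_zero_left h2]
    module
  | zero => exact ⟨1, one_mem _, by simp [SteinbergSymbol.one_left]⟩
  | add x y _ _ hx hy =>
    obtain ⟨u, hu, hxu⟩ := hx
    obtain ⟨v, hv, hyv⟩ := hy
    refine ⟨u * v, mul_mem hu hv, ?_⟩
    rw [(univSymbol ℚ).mul_left]
    convert add_mem hxu hyv using 1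
    abel
  | neg x _ hx =>
    obtain ⟨u, hu, hxu⟩ := hx
    refine ⟨u⁻¹, inv_mem hu, ?_⟩
    rw [(univSymbol ℚ).inv_left]
    convert neg_mem hxu using 1
    abel

theorem tame_natUnit_self {u : ℚˣ} (hu : u ∈ smooth p) :
    tame p u (natUnit p) = Additive.ofMul (resHom p u) := by
  show Additive.ofMul _ = _
  rw [val_natUnit_self, hu ⟨p, hp.out⟩ le_rfl]
  simp

theorem tame_eq_zero {a b : ℚˣ} (ha : val p a = 0) (hb : val p b = 0) : tame p a b = 0 := by
  show Additive.ofMul _ = _
  rw [ha, hb]
  simp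

/-- The lifted tame symbol vanishes below. -/
theorem lift_tame_eq_zero {n : ℕ} (hn : n ≤ p) {w : K2 ℚ} (hw : w ∈ filtration n) :
    lift (tame p) w = 0 := by
  induction hw using AddSubgroup.closure_induction with
  | mem z hz =>
    obtain ⟨a, ha, b, hb, rfl⟩ := hz
    rw [lift_univSymbol, tame_eq_zero (ha ⟨p, hp.out⟩ hn) (hb ⟨p, hp.out⟩ hn)]
  | zero => exact map_zero _
  | add x y _ _ hx hy => rw [map_add, hx, hy, add_zero]
  | neg x _ hx => rw [map_neg, hx, neg_zero]

end Step

/-! ### The isomorphism -/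

/-- The sum of the groups of the symbols. -/
abbrev Target : Type := Additive ℤˣ × ⨁ q : Nat.Primes, Additive (ZMod (q : ℕ))ˣ

/-- The primes in a rational. -/
def badPrimes (a : ℚˣ) : Finset Nat.Primes :=
  ((a : ℚ).num.natAbs * (a : ℚ).den).primeFactors.subtype Nat.Prime

theorem val_eq_zero_of_notMem {a : ℚˣ} {q : Nat.Primes} (h : q ∉ badPrimes a) : val q a = 0 := by
  have h' : ¬ (q : ℕ) ∣ (a : ℚ).num.natAbs * (a : ℚ).den := fun hd =>
    h (Finset.mem_subtype.2 (Nat.mem_primeFactors.2 ⟨q.2, hd, mul_ne_zero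
      (Int.natAbs_ne_zero.2 (Rat.num_ne_zero.2 a.ne_zero)) (a : ℚ).den_ne_zero⟩))
  rw [val, padicValRat_def, padicValInt,
    padicValNat.eq_zero_of_not_dvd fun hd => h' (dvd_mul_of_dvd_left hd _),
    padicValNat.eq_zero_of_not_dvd fun hd => h' (dvd_mul_of_dvd_right hd _)]
  simp

/-- The tame symbols together. -/
def tameSum (a b : ℚˣ) : ⨁ q : Nat.Primes, Additive (ZMod (q : ℕ))ˣ :=
  DirectSum.mk _ (badPrimes a ∪ badPrimes b) fun q => tame q.1 a b

theorem tameSum_apply (a b : ℚˣ) (q : Nat.Primes) : tameSum a b q = tame q a b := by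
  by_cases hq : q ∈ badPrimes a ∪ badPrimes b
  · exact DirectSum.mk_apply_of_mem hq
  · rw [tameSum, DirectSum.mk_apply_of_notMem hq]
    rw [Finset.mem_union, not_or] at hq
    exact (tame_eq_zero (val_eq_zero_of_notMem hq.1) (val_eq_zero_of_notMem hq.2)).symm

/-- The real symbol with all tame symbols. -/
def allSymbols : SteinbergSymbol ℚ Target where
  toFun a b := (realSymbol a b, tameSum a b)
  mul_left a b c := Prod.ext (realSymbol.mul_left a b c) (DirectSum.ext fun q => by
    simp only [Prod.snd_add, DirectSum.add_apply, tameSum_apply]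
    exact (tame q).mul_left a b c)
  mul_right a b c := Prod.ext (realSymbol.mul_right a b c) (DirectSum.ext fun q => by
    simp only [Prod.snd_add, DirectSum.add_apply, tameSum_apply]
    exact (tame q).mul_right a b c)
  steinberg a b h := Prod.ext (realSymbol.steinberg a b h) (DirectSum.ext fun q => by
    simp only [tameSum_apply]
    exact (tame q).steinberg a b h)

theorem lift_allSymbols_snd (q : Nat.Primes) (w : K2 ℚ) :
    (lift allSymbols w).2 q = lift (tame q) w := by
  have h : (DFinsupp.evalAddMonoidHom q).comp ((AddMonoidHom.snd _ _).comp (lift allSymbols)) =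
      lift (tame q) := hom_ext fun a b => by
    show (lift allSymbols (sy a b)).2 q = _
    rw [lift_univSymbol, lift_univSymbol]
    exact tameSum_apply a b q
  exact DFunLike.congr_fun h w

theorem lift_allSymbols_fst (w : K2 ℚ) : (lift allSymbols w).1 = lift realSymbol w := by
  have h : (AddMonoidHom.fst _ _).comp (lift allSymbols) = lift realSymbol := hom_ext fun a b => by
    show (lift allSymbols (sy a b)).1 = _
    rw [lift_univSymbol, lift_univSymbol]
    rfl
  exact DFunLike.congr_fun h w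

theorem eq_one_or_neg_one {a : ℚˣ} (ha : a ∈ smooth 2) : a = 1 ∨ a = -1 := by
  have key : ∀ q : ℕ, q.Prime → ¬ q ∣ (a : ℚ).num.natAbs ∧ ¬ q ∣ (a : ℚ).den := fun q hq => by
    have := Fact.mk hq
    have h0 := ha ⟨q, hq⟩ hq.two_le
    rw [val, padicValRat_def, padicValInt] at h0
    constructor <;> intro hd
    · have h1 : padicValNat q (a : ℚ).den = 0 := padicValNat.eq_zero_of_not_dvd fun hd' =>
        hq.ne_one (Nat.eq_one_of_dvd_coprimes (a : ℚ).reduced hd hd')
      have := one_le_padicValNat_of_dvd (Int.natAbs_ne_zero.2 (Rat.num_ne_zero.2 a.ne_zero)) hd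
      simp only [h1, Nat.cast_zero, sub_zero] at h0
      omega
    · have h1 : padicValNat q (a : ℚ).num.natAbs = 0 := padicValNat.eq_zero_of_not_dvd fun hd' =>
        hq.ne_one (Nat.eq_one_of_dvd_coprimes (a : ℚ).reduced hd' hd)
      have := one_le_padicValNat_of_dvd (a : ℚ).den_ne_zero hd
      simp only [h1, Nat.cast_zero, zero_sub, neg_eq_zero] at h0
      omega
  have hn : (a : ℚ).num.natAbs = 1 := by
    by_contra h
    obtain ⟨q, hq, hd⟩ := Nat.exists_prime_and_dvd h
    exact (key q hq).1 hd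
  have hd1 : (a : ℚ).den = 1 := by
    by_contra h
    obtain ⟨q, hq, hd⟩ := Nat.exists_prime_and_dvd h
    exact (key q hq).2 hd
  have he := (a : ℚ).num_div_den
  rw [hd1, Nat.cast_one, div_one] at he
  rcases Int.natAbs_eq (a : ℚ).num with h | h <;> rw [hn] at h
  · exact Or.inl (Units.ext (by rw [← he, h]; simp))
  · exact Or.inr (Units.ext (by rw [← he, h]; simp))

theorem realSymbol_neg_one : realSymbol (-1) (-1) = Additive.ofMul (-1) := by
  show Additive.ofMul _ = _
  simp

/-- The symbols detect the bottom of the filtration. -/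
theorem eq_zero_of_mem_two {w : K2 ℚ} (hw : w ∈ filtration 2) (h : lift realSymbol w = 0) :
    w = 0 := by
  have hle : filtration 2 ≤ AddSubgroup.zmultiples (sy (-1) (-1)) := by
    refine (AddSubgroup.closure_le _).2 ?_
    rintro z ⟨a, ha, b, hb, rfl⟩
    rcases eq_one_or_neg_one ha with rfl | rfl <;> rcases eq_one_or_neg_one hb with rfl | rfl
    any_goals (rw [(univSymbol ℚ).one_left]; exact zero_mem _)
    · rw [(univSymbol ℚ).one_right]; exact zero_mem _
    · exact AddSubgroup.mem_zmultiples _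
  obtain ⟨k, rfl⟩ := AddSubgroup.mem_zmultiples_iff.1 (hle hw)
  rw [map_zsmul, lift_univSymbol, realSymbol_neg_one, ← ofMul_zpow, ofMul_eq_zero] at h
  obtain ⟨l, rfl⟩ : Even k := by
    by_contra hodd
    obtain ⟨l, rfl⟩ := Int.not_even_iff_odd.1 hodd
    rw [zpow_add, zpow_mul, show ((-1 : ℤˣ)) ^ (2 : ℤ) = 1 by simp, one_zpow, one_mul,
      zpow_one] at h
    exact absurd h (by decide)
  rw [add_zsmul, ← (univSymbol ℚ).zpow_left, ← (univSymbol ℚ).mul_left, ← mul_zpow,
    show (-1 : ℚˣ) * -1 = 1 by simp, one_zpow, (univSymbol ℚ).one_left]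

/-- **Injectivity.** -/
theorem lift_allSymbols_injective : Function.Injective (lift allSymbols) := by
  refine (injective_iff_map_eq_zero _).2 fun w hw => ?_
  obtain ⟨n, hn⟩ := exists_mem_filtration w
  induction n generalizing w with
  | zero =>
    exact eq_zero_of_mem_two (filtration_mono (Nat.zero_le 2) hn)
      (by rw [← lift_allSymbols_fst, hw]; rfl)
  | succ n ih =>
    by_cases hp : n.Prime
    · have := Fact.mk hp
      obtain ⟨u, hu, hwu⟩ := exists_sub_mem hn
      have h1 := lift_tame_eq_zero le_rfl hwu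
      have h0 : lift (tame n) w = 0 := by
        rw [← lift_allSymbols_snd ⟨n, hp⟩, hw]
        rfl
      rw [map_sub, h0, zero_sub, neg_eq_zero, lift_univSymbol, tame_natUnit_self hu,
        ofMul_eq_zero] at h1
      refine ih w hw ?_
      convert add_mem hwu (sy_mem_of_resHom hu h1) using 1
      abel
    · rcases lt_or_ge n 2 with h2 | h2
      · exact eq_zero_of_mem_two (filtration_mono (by omega) hn)
          (by rw [← lift_allSymbols_fst, hw]; rfl)
      refine ih w hw ?_
      have hsm : smooth (n + 1) ≤ smooth n := fun a ha q hq => by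
        rcases eq_or_lt_of_le hq with rfl | hlt
        · exact absurd q.2 hp
        · exact ha q hlt
      exact (AddSubgroup.closure_mono fun _ ⟨a, ha, b, hb, e⟩ =>
        ⟨a, hsm ha, b, hsm hb, e⟩ : filtration (n + 1) ≤ filtration n) hn

/-- **Surjectivity.** -/
theorem lift_allSymbols_surjective : Function.Surjective (lift allSymbols) := by
  have hreal : ∀ e, (e, (0 : ⨁ q : Nat.Primes, Additive (ZMod (q : ℕ))ˣ)) ∈
      (lift allSymbols).range := fun e => by
    rcases Int.units_eq_one_or (Additive.toMul e) with he | he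
    · rw [show e = 0 from he]
      exact zero_mem _
    refine ⟨sy (-1) (-1), Prod.ext ?_ (DirectSum.ext fun q => ?_)⟩
    · rw [lift_allSymbols_fst, lift_univSymbol, realSymbol_neg_one]
      exact he.symm
    · rw [lift_allSymbols_snd, lift_univSymbol, DirectSum.zero_apply,
        tame_eq_zero (by rw [val_neg, val_one]) (by rw [val_neg, val_one])]
  have hsum : ∀ n : ℕ, ∀ d : ⨁ q : Nat.Primes, Additive (ZMod (q : ℕ))ˣ,
      (∀ q : Nat.Primes, n ≤ q → d q = 0) → ((0 : Additive ℤˣ), d) ∈ (lift allSymbols).range := by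
    intro n
    induction n with
    | zero =>
      intro d hd
      rw [show d = 0 from DirectSum.ext fun q => hd q (Nat.zero_le _)]
      exact zero_mem _
    | succ n ih =>
      intro d hd
      by_cases hp : n.Prime
      swap
      · refine ih d fun q hq => hd q (Nat.lt_of_le_of_ne hq fun e => hp ?_)
        rw [e]
        exact q.2
      have := Fact.mk hp
      set x : (ZMod n)ˣ := Additive.toMul (d ⟨n, hp⟩)
      have hx0 : (x : ZMod n).val ≠ 0 := fun e => x.ne_zero ((ZMod.val_eq_zero _).1 e)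
      set u := natUnit (x : ZMod n).val
      have hu : u ∈ smooth n := natUnit_mem_of_lt hx0 (ZMod.val_lt _)
      set w := sy u (natUnit n)
      have hfst : (lift allSymbols w).1 = 0 := by
        rw [lift_allSymbols_fst, lift_univSymbol]
        show Additive.ofMul _ = _
        rw [if_neg fun h => absurd h.1 (not_lt.2 (by rw [coe_natUnit hx0]; positivity))]
        rfl
      have hres : resHom n u = x := Units.ext (by
        rw [val_resHom]
        have he : (unitPartHom n u : ℤ_[n]) = ((x : ZMod n).val : ℤ_[n]) := Subtype.ext (by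
          push_cast
          rw [unitPartHom_of_val n (hu ⟨n, hp⟩ le_rfl), coe_natUnit hx0, Rat.cast_natCast])
        rw [he, map_natCast, ZMod.natCast_zmod_val])
      have h := ih (d - (lift allSymbols w).2) fun q hq => by
        rw [DirectSum.sub_apply, lift_allSymbols_snd, sub_eq_zero]
        rcases eq_or_lt_of_le hq with e | hlt
        · obtain rfl : q = ⟨n, hp⟩ := Subtype.ext e.symm
          rw [lift_univSymbol, tame_natUnit_self hu, hres]
          rfl
        · rw [hd q hlt, lift_univSymbol,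
            tame_eq_zero (hu q hq) (mem_smooth_succ_natUnit n hp q hlt)]
      have h2 := add_mem h (show lift allSymbols w ∈ (lift allSymbols).range from ⟨w, rfl⟩)
      rwa [show ((0 : Additive ℤˣ), d - (lift allSymbols w).2) + lift allSymbols w = (0, d) from
        Prod.ext (by simp [hfst]) (by simp)] at h2
  intro z
  obtain ⟨n, hn⟩ : ∃ n : ℕ, ∀ q : Nat.Primes, n ≤ (q : ℕ) → z.2 q = 0 := by
    classical
    refine ⟨(DFinsupp.support z.2).sup (fun q : Nat.Primes => (q : ℕ)) + 1, fun q hq => ?_⟩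
    by_contra h
    have : (q : ℕ) ≤ (DFinsupp.support z.2).sup (fun q : Nat.Primes => (q : ℕ)) :=
      Finset.le_sup (f := fun q : Nat.Primes => (q : ℕ)) (DFinsupp.mem_support_iff.2 h)
    omega
  have h := add_mem (hreal z.1) (hsum n z.2 hn)
  rwa [show (z.1, (0 : ⨁ q : Nat.Primes, Additive (ZMod (q : ℕ))ˣ)) + (0, z.2) = z from
    Prod.ext (by simp) (by simp)] at h

/-- **Tate's theorem.** -/
def k2RatEquiv : K2 ℚ ≃+ Target :=
  AddEquiv.ofBijective (lift allSymbols) ⟨lift_allSymbols_injective, lift_allSymbols_surjective⟩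

theorem k2RatEquiv_apply (a b : ℚˣ) :
    k2RatEquiv (sy a b) = (realSymbol a b, tameSum a b) := lift_univSymbol allSymbols a b

end Fermat.Agent.K2Rat
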